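import Fermat.Agent.RowS56.Model.Newton
import Fermat.Agent.FlatJ0.Extend
import Fermat.Agent.FlatJ0.Ramif.Basic
import Fermat.Agent.FlatJ0.Tangent.Defs

/-!
# Fontaine's bound for a finite flat model killed by `p`

A ring homomorphism modulo `ord ≥ γ`, `γ > p / (p - 1)`, on the integers of the field of the points
sends each point to a functional congruent to a unique point; this gives the bound.
-/

noncomputable section

namespace Fermat.Agent.RowS56

open Fermat.Agent.FlatJ0 Fermat.Agent.GalCoh.Descent Module ExtCitation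

local notation "Ω" => AlgebraicClosure ℚ
local notation "G_ℚ" => (AlgebraicClosure ℚ) ≃ₐ[ℚ] (AlgebraicClosure ℚ)

local instance isAlgebraicQbar_model : Algebra.IsAlgebraic ℚ Ω := AlgebraicClosure.isAlgebraic ℚ

variable {A : ValuationSubring Ω} {p : ℕ} [Fact p.Prime] {W : Type} [AddCommGroup W]
  [Module (ZMod p) W] [Finite W] {act : G_ℚ →* AddMonoid.End W}
  {M : Subalgebra (GaloisRep.ratLocalizedAt p) (W → Ω)}

/-- The inertia elements fixing the points and the `p`-th roots of unity. -/
def modelKer (A : ValuationSubring Ω) (p : ℕ) [Fact p.Prime] (act : G_ℚ →* AddMonoid.End W) :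
    Subgroup G_ℚ :=
  A.inertiaSubgroupIn ℚ ⊓ ({ carrier := {σ | act σ = 1}
                             one_mem' := map_one act
                             mul_mem' := fun {a b} (ha : act a = 1) (hb : act b = 1) => by
                               show act (a * b) = 1
                               rw [map_mul, ha, hb, one_mul]
                             inv_mem' := fun {a} (ha : act a = 1) => by
                               show act a⁻¹ = 1
                               have h := map_mul act a⁻¹ a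
                               rwa [inv_mul_cancel, map_one, ha, mul_one, eq_comm] at h } :
    Subgroup G_ℚ) ⊓ (cycloChar p).ker

omit [Module (ZMod p) W] [Finite W] in
lemma mem_modelKer {σ : G_ℚ} : σ ∈ modelKer A p act ↔
    (σ ∈ A.inertiaSubgroupIn ℚ ∧ act σ = 1) ∧ cycloChar p σ = 1 := Iff.rfl

omit [Module (ZMod p) W] [Finite W] in
lemma modelKer_le : modelKer A p act ≤ A.inertiaSubgroupIn ℚ := fun _ hσ => hσ.1.1

omit [Module (ZMod p) W] [Finite W] in
lemma modelKer_normal : ∀ g ∈ A.inertiaSubgroupIn ℚ, ∀ n ∈ modelKer A p act,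
    g * n * g⁻¹ ∈ modelKer A p act := fun g hg n hn => by
  obtain ⟨⟨hnI, hna⟩, hnc⟩ := mem_modelKer.mp hn
  refine mem_modelKer.mpr ⟨⟨mul_mem (mul_mem hg hnI) (inv_mem hg), ?_⟩, ?_⟩
  · rw [map_mul, map_mul, hna, mul_one, ← map_mul, mul_inv_cancel, map_one]
  · rw [map_mul, map_mul, hnc, mul_one, ← map_mul, mul_inv_cancel, map_one]

variable (h : IsOver A p) (hM : IsModel p act M)
include h hM

omit [Module (ZMod p) W] in
/-- A model gives a Galois module of finite level. -/
lemma exists_level : ∃ F : IntermediateField ℚ Ω, FiniteDimensional ℚ F ∧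
    ∀ σ ∈ F.fixingSubgroup, act σ = 1 ∧ cycloChar p σ = 1 := by
  classical
  obtain ⟨ι, _, b, hb⟩ := exists_latticeBasis h hM
  let S : Set Ω := Set.insert (zetaP p) (Set.range fun ix : ι × W => b ix.1 ix.2)
  have : Finite S := ((Set.finite_range _).insert _).to_subtype
  have : FiniteDimensional ℚ (IntermediateField.adjoin ℚ S) :=
    IntermediateField.finiteDimensional_adjoin fun z _ => Algebra.IsIntegral.isIntegral z
  refine ⟨IntermediateField.adjoin ℚ S, inferInstance, fun σ hσ => ?_⟩
  have hfix : ∀ z ∈ S, σ z = z := fun z hz =>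
    (IntermediateField.mem_fixingSubgroup_iff _ _).mp hσ z (IntermediateField.subset_adjoin ℚ S hz)
  refine ⟨DFunLike.ext _ _ fun x => hM.sep _ _ fun f hf => ?_,
    cycloChar_eq_one (hfix _ (Set.mem_insert _ _))⟩
  rw [hM.equiv f hf]
  conv_lhs => rw [← b.sum_repr f]
  conv_rhs => rw [← b.sum_repr f]
  show σ ((∑ i, b.repr f i • b i) x) = (∑ i, b.repr f i • b i) x
  simp only [Finset.sum_apply, Pi.smul_apply, smul_eq_mul, map_sum, map_mul]
  exact Finset.sum_congr rfl fun i _ => by
    rw [repr_fixed hM hb hf i σ, hfix _ (Set.mem_insert_of_mem _ ⟨(i, x), rfl⟩)]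

omit [Module (ZMod p) W] in
lemma modelKer_isOpen : IsOpenInInertia A (modelKer A p act) := by
  obtain ⟨F, hF, hF'⟩ := exists_level (A := A) h hM
  exact ⟨F, hF, fun σ hσ hσF => mem_modelKer.mpr ⟨⟨hσ, (hF' σ hσF).1⟩, (hF' σ hσF).2⟩⟩

/-- **Fontaine's bound.** -/
theorem hasBound {γ : ℚ} (hγ : (p : ℚ) / (p - 1) < γ) : HasBound A p (modelKer A p act) γ := by
  classical
  intro φ hφ σ hσ hfix
  obtain ⟨ι, _, b, hb⟩ := exists_latticeBasis h hM
  obtain ⟨u⟩ := exists_unif h (modelKer_le (A := A) (p := p) (act := act)) modelKer_normal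
    (modelKer_isOpen h hM)
  have : ((modelKer A p act).subgroupOf (A.inertiaSubgroupIn ℚ)).FiniteIndex :=
    ⟨u.index_eq ▸ u.e_pos.ne'⟩
  have hgap := rootGap_pos (p := p)
  have hγg : rootGap p < γ - 1 := by rw [← rootGap_add_one] at hγ; linarith
  have hγ1 : 1 < γ := by linarith
  have hσd := MultRed.inertia_mem_decomposition hσ
  -- the values of the model
  have hval : ∀ f ∈ M, ∀ x, f x ∈ fixRing A (modelKer A p act) := fun f hf x =>
    ⟨value_mem hb hf x, fun τ hτ => by
      rw [← hM.equiv f hf, (mem_modelKer.mp hτ).1.2]; rfl⟩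
  have hcoef : ∀ f ∈ M, ∀ i, b.repr f i ∈ fixRing A (A.inertiaSubgroupIn ℚ) := fun f hf i =>
    ⟨hb.repr_mem f hf i, fun τ _ => repr_fixed hM hb hf i τ⟩
  have hmono : fixRing A (A.inertiaSubgroupIn ℚ) ≤ fixRing A (modelKer A p act) :=
    fun z hz => ⟨hz.1, fun τ hτ => hz.2 τ (modelKer_le hτ)⟩
  let Φ : W → Dual Ω (W → Ω) := fun x => b.constr Ω fun i => φ (b i x)
  have hΦb : ∀ x i, Φ x (b i) = φ (b i x) := fun x i => Basis.constr_basis _ _ _ _
  have hΦ : ∀ x, ∀ f ∈ M, Near A p γ (Φ x f - φ (f x)) := fun x f hf => by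
    have e1 : f x = ∑ i, b.repr f i * b i x := by
      conv_lhs => rw [← b.sum_repr f]
      simp [Finset.sum_apply]
    have e2 : Φ x f = ∑ i, b.repr f i * φ (b i x) := by
      conv_lhs => rw [← b.sum_repr f, map_sum]
      simp [hΦb]
    refine h.near_sub_comm ?_
    rw [e1, e2]
    refine h.near_trans (IsHomMod.sum h hφ Finset.univ (fun i => b.repr f i * b i x)
      fun i _ => mul_mem (hmono (hcoef f hf i)) (hval _ (hb.mem i) x)) ?_
    rw [← Finset.sum_sub_distrib]
    refine h.near_sum _ _ fun i _ => h.near_trans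
      (hφ.mul _ (hmono (hcoef f hf i)) _ (hval _ (hb.mem i) x)) ?_
    rw [← sub_mul]
    exact h.near_mul_right (hφ.fixed _ (hcoef f hf i)) (hφ.mem _ (hval _ (hb.mem i) x))
  let T : W → Dual (ZMod p) W → Ω := fun x η => Φ x (chi η)
  have hT : ∀ x, ofT (T x) = Φ x := fun x => dual_ext (p := p) fun η => by rw [ofT_chi]
  have hT0 : ∀ x, IntNear A b 0 (T x) := fun x i => by
    rw [hT, hΦb]; exact h.near_of_mem (hφ.mem _ (hval _ (hb.mem i) x))
  -- additivity in the point
  have hTadd : ∀ x x', IntNear A b γ (T (x + x') - T x * T x') := fun x x' l => by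
    obtain ⟨n, a, c, ha, hc, hsum⟩ := hM.comul _ (hb.mem l)
    rw [ofT_sub, LinearMap.sub_apply, ofT_mul, hT, hT, hT, hΦb, convol_sum a c hsum, hsum]
    refine h.near_trans (IsHomMod.sum h hφ Finset.univ (fun i => a i x * c i x')
      fun i _ => mul_mem (hval _ (ha i) x) (hval _ (hc i) x')) ?_
    rw [← Finset.sum_sub_distrib]
    refine h.near_sum _ _ fun i _ => ?_
    refine h.near_trans (hφ.mul _ (hval _ (ha i) x) _ (hval _ (hc i) x')) ?_
    rw [show φ (a i x) * φ (c i x') - Φ x (a i) * Φ x' (c i) =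
      (φ (a i x) - Φ x (a i)) * φ (c i x') + Φ x (a i) * (φ (c i x') - Φ x' (c i)) by ring]
    refine h.near_add (h.near_mul_right (h.near_sub_comm (hΦ x _ (ha i)))
      (hφ.mem _ (hval _ (hc i) x'))) (h.near_mul_left ?_ (h.near_sub_comm (hΦ x' _ (hc i))))
    exact h.mem_of_near (hT x ▸ IntNear.apply h hb (hT0 x) (ha i)) le_rfl
  have hTzero : IntNear A b γ (T 0 - 1) := fun l => by
    rw [← pointT_zero, ofT_sub, LinearMap.sub_apply, hT, hΦb, ofT_pointT]
    exact hφ.fixed _ ⟨value_mem hb (hb.mem l) 0, fun τ _ => by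
      rw [← hM.equiv _ (hb.mem l), map_zero]⟩
  have hTpow : ∀ x (n : ℕ), IntNear A b γ (T (n • x) - T x ^ n) := by
    intro x n
    induction n with
    | zero => simpa using hTzero
    | succ n ih =>
      have h1 := (hTadd (n • x) x).add h
        ((IntNear.mul h hM hb ih (hT0 x)).mono (by linarith))
      rw [show T (n • x + x) - T (n • x) * T x + (T (n • x) - T x ^ n) * T x =
        T (n • x + x) - T x ^ (n + 1) by ring, ← succ_nsmul] at h1
      exact h1
  have hTp : ∀ x, IntNear A b γ (T x ^ p - 1) := fun x => by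
    have := hTzero.sub h (hTpow x p)
    rw [show p • x = 0 by rw [← Nat.cast_smul_eq_nsmul (ZMod p), ZMod.natCast_self, zero_smul],
      show T 0 - 1 - (T 0 - T x ^ p) = T x ^ p - 1 by ring] at this
    exact this
  -- multiplicativity in the character
  have hTmul : ∀ x η η', Near A p γ (T x (η + η') - T x η * T x η') := fun x η η' => by
    have e : ∀ η : Dual (ZMod p) W, T x η = ∑ i, b.repr (chi η) i * Φ x (b i) := fun η => by
      show Φ x (chi η) = _
      conv_lhs => rw [← b.sum_repr (chi η), map_sum]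
      simp
    rw [e η, e η', Finset.sum_mul_sum]
    have e2 : T x (η + η') =
        ∑ i, ∑ j, b.repr (chi η) i * b.repr (chi η') j * Φ x (b i * b j) := by
      show Φ x (chi (η + η')) = _
      rw [chi_add]
      conv_lhs => rw [← b.sum_repr (chi η), ← b.sum_repr (chi η'), Finset.sum_mul_sum]
      simp [map_sum]
      exact Finset.sum_congr rfl fun i _ => Finset.sum_congr rfl fun j _ => by ring
    rw [e2, ← Finset.sum_sub_distrib]
    refine h.near_sum _ _ fun i _ => ?_
    rw [← Finset.sum_sub_distrib]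
    refine h.near_sum _ _ fun j _ => ?_
    rw [show b.repr (chi η) i * b.repr (chi η') j * Φ x (b i * b j) -
        b.repr (chi η) i * Φ x (b i) * (b.repr (chi η') j * Φ x (b j)) =
      b.repr (chi η) i * b.repr (chi η') j * (Φ x (b i * b j) - Φ x (b i) * Φ x (b j)) by ring,
      hΦb, hΦb]
    exact h.near_mul_left (mul_mem (repr_chi_mem hM hb η i) (repr_chi_mem hM hb η' j))
      (h.near_trans (hΦ x _ (M.mul_mem (hb.mem i) (hb.mem j)))
        (hφ.mul _ (hval _ (hb.mem i) x) _ (hval _ (hb.mem j) x)))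
  -- the point attached to `x`
  have hpoint : ∀ x, ∃ y, ∀ i, Near A p (γ - 1) (φ (b i x) - b i y) := by
    intro x
    have hroot : ∀ η, ∃ j : ZMod p, Near A p (γ - 1) (T x η - mu p j) := fun η => by
      obtain ⟨j, hj⟩ := exists_near_root h one_ne_zero h.ord_one hγ (a := T x η)
        (by rw [one_pow]; simpa using IntNear.value h hM hb (hTp x) η)
      exact ⟨j, by rwa [mul_one] at hj⟩
    choose j hj using hroot
    have hjA : ∀ η, T x η ∈ A := fun η =>
      h.mem_of_near (IntNear.value h hM hb (hT0 x) η) le_rfl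
    have hjadd : ∀ η η', j (η + η') = j η + j η' := fun η η' => by
      refine eq_of_near_mu h hγg ?_
      rw [mu_add]
      refine h.near_trans (h.near_sub_comm (hj _)) (h.near_trans
        ((hTmul x η η').mono (by linarith)) ?_)
      rw [show T x η * T x η' - mu p (j η) * mu p (j η') =
        (T x η - mu p (j η)) * T x η' + mu p (j η) * (T x η' - mu p (j η')) by ring]
      exact h.near_add (h.near_mul_right (hj η) (hjA η')) (h.near_mul_left (mu_mem _) (hj η'))
    have : Module.Finite (ZMod p) W := Module.Finite.of_finite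
    let J : Dual (ZMod p) (Dual (ZMod p) W) :=
      AddMonoidHom.toZModLinearMap p (AddMonoidHom.mk' j hjadd)
    obtain ⟨y, hy⟩ := (Module.evalEquiv (ZMod p) W).surjective J
    have hyη : ∀ η : Dual (ZMod p) W, η y = j η := fun η => by
      have := LinearMap.congr_fun hy η
      simpa [J] using this
    refine ⟨y, fun i => ?_⟩
    have hinv : pointT (p := p) (-y) * pointT y = 1 := by
      rw [← pointT_add, neg_add_cancel, pointT_zero]
    have hpt : ∀ z : W, pointT (p := p) z ^ p = 1 := fun z => funext fun η => by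
      simp [pointT, chi, mu_pow]
    have hroot' : IntNear A b (γ - 1) (T x * pointT (-y) - 1) := by
      refine intNear_of_pow h hM hb hγ ?_ fun η => ?_
      · rw [mul_pow, hpt, mul_one]; exact hTp x
      · show Near A p (γ - 1) (T x η * mu p (η (-y)) - 1)
        rw [map_neg, hyη, show T x η * mu p (-(j η)) - 1 = (T x η - mu p (j η)) * mu p (-(j η)) by
          rw [sub_mul, ← mu_add, add_neg_cancel, mu_zero]]
        exact h.near_mul_right (hj η) (mu_mem _)
    have h2 := (IntNear.mul h hM hb hroot' (intNear_pointT h hb (p := p) y)) i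
    rw [sub_mul, one_mul, mul_assoc, hinv, mul_one, ofT_sub, LinearMap.sub_apply, hT, hΦb,
      ofT_pointT, add_zero] at h2
    exact h2
  choose Y hY using hpoint
  have hYinj : Function.Injective Y := fun x x' e => by
    refine eq_of_forall_near h hM hb (p := p) hγg fun i => ?_
    refine IsHomMod.near_of_near_apply h hγ1 hφ (sub_mem (hval _ (hb.mem i) x)
      (hval _ (hb.mem i) x')) (by linarith) ?_
    have h2 := h.near_add ((IsHomMod.sub h hφ (hval _ (hb.mem i) x) (hval _ (hb.mem i) x')).mono
      (by linarith : γ - 1 ≤ γ)) (h.near_trans (hY x i) (e ▸ h.near_sub_comm (hY x' i)))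
    rwa [sub_add_cancel] at h2
  refine mem_modelKer.mpr ⟨⟨hσ, DFunLike.ext _ _ fun y => ?_⟩, ?_⟩
  · obtain ⟨x, rfl⟩ := (Finite.injective_iff_surjective.mp hYinj) y
    show act σ (Y x) = Y x
    refine eq_of_forall_near h hM hb (p := p) hγg fun i => ?_
    rw [hM.equiv _ (hb.mem i)]
    refine h.near_trans (y := σ (φ (b i x))) ?_ (h.near_trans
      ((hfix _ (hval _ (hb.mem i) x)).mono (by linarith)) (hY x i))
    rw [← map_sub, h.near_apply hσd]
    exact h.near_sub_comm (hY x i)
  · have hz : mu p (1 : ZMod p) ∈ fixRing A (modelKer A p act) :=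
      ⟨mu_mem _, fun τ hτ => apply_mu_eq (mem_modelKer.mp hτ).2 _⟩
    obtain ⟨j, hj⟩ := exists_near_root h one_ne_zero h.ord_one hγ (a := φ (mu p (1 : ZMod p)))
      (by
        have h2 := h.near_trans (h.near_sub_comm (IsHomMod.pow h hφ hz p))
          (show Near A p γ (φ (mu p (1 : ZMod p) ^ p) - 1) by rw [mu_pow]; exact hφ.one)
        rwa [one_pow])
    rw [mul_one] at hj
    have hj0 : j ≠ 0 := fun e => by
      rw [e, mu_zero] at hj
      have h2 := h.near_trans hj (h.near_sub_comm (hφ.one.mono (by linarith : γ - 1 ≤ γ)))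
      have h3 := h.near_add ((IsHomMod.sub h hφ hz (one_mem _)).mono
        (by linarith : γ - 1 ≤ γ)) h2
      rw [sub_add_cancel] at h3
      have h4 := IsHomMod.near_of_near_apply h hγ1 hφ (sub_mem hz (one_mem _)) (by linarith) h3
      rw [← mu_zero (p := p)] at h4
      exact one_ne_zero (eq_of_near_mu h hγg h4)
    refine Units.ext (mul_right_cancel₀ hj0 ?_)
    rw [Units.val_one, one_mul]
    refine eq_of_near_mu h hγg ?_
    rw [← apply_mu]
    refine h.near_trans (y := σ (φ (mu p (1 : ZMod p)))) ?_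
      (h.near_trans ((hfix _ hz).mono (by linarith)) hj)
    rw [← map_sub, h.near_apply hσd]
    exact h.near_sub_comm hj

end Fermat.Agent.RowS56
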