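import Fermat.Agent.RowS56.Model.Roots
import Fermat.Prelude.Def_GaloisRep_Flat
import Mathlib.FieldTheory.Fixed
import Mathlib.LinearAlgebra.Basis.VectorSpace
import Mathlib.LinearAlgebra.FiniteDimensional.Lemmas
import Mathlib.LinearAlgebra.Dual.Lemmas
import Mathlib.Algebra.Algebra.Subalgebra.Basic

/-!
# The lattice of functions of a finite flat model

A finite flat group scheme over `ℤ_(p)` with points `W` gives a lattice of equivariant functions on
`W`.  Over the valuation ring it has a basis of equivariant functions, in which all characters of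
`W` are integral.
-/

noncomputable section

namespace Fermat.Agent.RowS56

open Fermat.Agent.FlatJ0 Fermat.Agent.GalCoh.Descent Module

local notation "Ω" => AlgebraicClosure ℚ
local notation "G_ℚ" => (AlgebraicClosure ℚ) ≃ₐ[ℚ] (AlgebraicClosure ℚ)

variable {A : ValuationSubring Ω} {p : ℕ} [Fact p.Prime] {W : Type} [AddCommGroup W]

/-- Functions of a finite flat model of the Galois module `W`. -/
structure IsModel (p : ℕ) (act : G_ℚ →* AddMonoid.End W)
    (M : Subalgebra (GaloisRep.ratLocalizedAt p) (W → Ω)) : Prop where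
  fg : (Subalgebra.toSubmodule M).FG
  equiv : ∀ f ∈ M, ∀ (σ : G_ℚ) (x : W), f (act σ x) = σ (f x)
  sep : ∀ x y : W, (∀ f ∈ M, f x = f y) → x = y
  comul : ∀ f ∈ M, ∃ (n : ℕ) (a b : Fin n → W → Ω), (∀ i, a i ∈ M) ∧ (∀ i, b i ∈ M) ∧
    ∀ x y, f (x + y) = ∑ i, a i x * b i y

variable (h : IsOver A p)
include h

omit [Fact (Nat.Prime p)] in
lemma algebraMap_mem (r : GaloisRep.ratLocalizedAt p) :
    algebraMap (GaloisRep.ratLocalizedAt p) Ω r ∈ A := by
  show algebraMap ℚ Ω (r : ℚ) ∈ A
  obtain ⟨u, v, huv⟩ := (Int.isCoprime_iff_nat_coprime.mpr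
    (by rw [Int.natAbs_natCast, Int.natAbs_natCast]; exact r.2) : IsCoprime ((r : ℚ).den : ℤ) (p : ℤ))
  have hd : A.valuation ((r : ℚ).den : Ω) = 1 := by
    refine le_antisymm ((A.valuation_le_one_iff _).mpr (natCast_mem A _)) (not_lt.mp fun hlt => ?_)
    have e : ((u : Ω) * ((r : ℚ).den : Ω) + (v : Ω) * (p : Ω)) = 1 := by exact_mod_cast huv
    have := A.valuation.map_add ((u : Ω) * ((r : ℚ).den : Ω)) ((v : Ω) * (p : Ω))
    rw [e, map_one, map_mul, map_mul] at this
    refine absurd this (not_le.mpr (max_lt ?_ ?_))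
    · exact lt_of_le_of_lt (mul_le_of_le_one_left zero_le
        ((A.valuation_le_one_iff _).mpr (intCast_mem A u))) hlt
    · exact lt_of_le_of_lt (mul_le_of_le_one_left zero_le
        ((A.valuation_le_one_iff _).mpr (intCast_mem A v))) h.val_p_lt_one
  have e : algebraMap ℚ Ω (r : ℚ) = ((r : ℚ).num : Ω) / ((r : ℚ).den : Ω) := by
    conv_lhs => rw [← Rat.num_div_den (r : ℚ), map_div₀, map_intCast, map_natCast]
  rw [e, ← A.valuation_le_one_iff, map_div₀, hd, div_one, A.valuation_le_one_iff]
  exact intCast_mem A _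

omit [Fact (Nat.Prime p)] h in
/-- Elements closed under squares up to integral combinations are integral. -/
lemma mem_of_sq_mem_span {ι : Type} [Fintype ι] (a : ι → Ω)
    (ha : ∀ i, ∃ c : ι → Ω, (∀ j, c j ∈ A) ∧ a i * a i = ∑ j, c j * a j) (i : ι) : a i ∈ A := by
  classical
  obtain ⟨i₀, -, hmax⟩ := Finset.univ.exists_max_image (fun j => A.valuation (a j))
    ⟨i, Finset.mem_univ i⟩
  rw [← A.valuation_le_one_iff]
  refine (hmax i (Finset.mem_univ i)).trans (not_lt.mp fun hlt => ?_)
  obtain ⟨c, hc, e⟩ := ha i₀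
  have h1 : A.valuation (a i₀ * a i₀) ≤ A.valuation (a i₀) := by
    rw [e]
    refine A.valuation.map_sum_le fun j _ => ?_
    rw [map_mul]
    exact (mul_le_of_le_one_left zero_le ((A.valuation_le_one_iff _).mpr (hc j))).trans
      (hmax j (Finset.mem_univ j))
  rw [map_mul] at h1
  refine absurd h1 (not_le.mpr ?_)
  calc A.valuation (a i₀) = 1 * A.valuation (a i₀) := (one_mul _).symm
    _ < A.valuation (a i₀) * A.valuation (a i₀) :=
      mul_lt_mul_of_pos_right hlt (zero_lt_one.trans hlt)

omit h in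
/-- A basis of the lattice over the valuation ring, by functions of the model. -/
structure IsLatticeBasis (A : ValuationSubring Ω) {ι : Type}
    (M : Subalgebra (GaloisRep.ratLocalizedAt p) (W → Ω)) (b : Basis ι Ω (W → Ω)) : Prop where
  mem : ∀ i, b i ∈ M
  repr_mem : ∀ f ∈ M, ∀ i, b.repr f i ∈ A

variable {act : G_ℚ →* AddMonoid.End W} {M : Subalgebra (GaloisRep.ratLocalizedAt p) (W → Ω)}
  (hM : IsModel p act M) [Finite W]

omit h in
include hM in
omit [Fact (Nat.Prime p)] in
/-- The functions of a model span all functions. -/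
lemma span_eq_top : Submodule.span Ω (M : Set (W → Ω)) = ⊤ := by
  classical
  let := Fintype.ofFinite W
  set S := Submodule.span Ω (M : Set (W → Ω))
  have hone : (1 : W → Ω) ∈ S := Submodule.subset_span M.one_mem
  have hmul : ∀ f ∈ S, ∀ g ∈ S, f * g ∈ S := by
    intro f hf g hg
    have := Submodule.mul_mem_mul hf hg
    rw [Submodule.span_mul_span] at this
    exact Submodule.span_mono (Set.mul_subset_iff.mpr fun _ ha _ hb => M.mul_mem ha hb) this
  have hδ : ∀ x : W, (Pi.single x 1 : W → Ω) ∈ S := fun x => by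
    have key : ∀ t : Finset W, x ∉ t → ∃ f ∈ S, f x = 1 ∧ ∀ y ∈ t, f y = 0 := by
      intro t
      induction t using Finset.induction_on with
      | empty => exact fun _ => ⟨1, hone, rfl, by simp⟩
      | insert y t hy ih =>
        intro hx
        rw [Finset.mem_insert, not_or] at hx
        obtain ⟨f, hf, hfx, hft⟩ := ih hx.2
        obtain ⟨g, hg, hgxy⟩ : ∃ g ∈ M, g x ≠ g y := by
          by_contra! hcon
          exact hx.1 (hM.sep x y hcon)
        refine ⟨f * ((g x - g y)⁻¹ • (g - g y • (1 : W → Ω))), hmul _ hf _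
          (S.smul_mem _ (S.sub_mem (Submodule.subset_span hg) (S.smul_mem _ hone))), ?_, ?_⟩
        · simp [hfx, inv_mul_cancel₀ (sub_ne_zero.mpr hgxy)]
        · intro z hz
          rcases Finset.mem_insert.mp hz with rfl | hz
          · simp
          · simp [hft z hz]
    obtain ⟨f, hf, hfx, hft⟩ := key (Finset.univ.erase x) (Finset.notMem_erase _ _)
    convert hf using 1
    funext y
    rcases eq_or_ne y x with rfl | hy
    · rw [Pi.single_eq_same, hfx]
    · rw [Pi.single_eq_of_ne hy, hft y (Finset.mem_erase.mpr ⟨hy, Finset.mem_univ y⟩)]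
  rw [eq_top_iff]
  intro f _
  rw [← Finset.univ_sum_single f]
  refine S.sum_mem fun x _ => ?_
  rw [show (Pi.single x (f x) : W → Ω) = f x • Pi.single x 1 by
    funext y; rcases eq_or_ne y x with rfl | hy <;> simp [*]]
  exact S.smul_mem _ (hδ x)

include hM in
omit [Fact (Nat.Prime p)] in
/-- **A lattice basis exists.** -/
theorem exists_latticeBasis : ∃ (ι : Type) (_ : Fintype ι) (b : Basis ι Ω (W → Ω)),
    IsLatticeBasis A M b := by
  classical
  let Spans : Finset (W → Ω) → Prop := fun t => (↑t ⊆ (M : Set (W → Ω))) ∧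
    ∀ f ∈ M, ∃ c : (W → Ω) → Ω, (∀ g ∈ t, c g ∈ A) ∧ f = ∑ g ∈ t, c g • g
  have hex : ∃ n, ∃ t, Spans t ∧ t.card = n := by
    obtain ⟨s, hs⟩ := hM.fg
    refine ⟨s.card, s, ⟨fun g hg => ?_, fun f hf => ?_⟩, rfl⟩
    · exact (Subalgebra.mem_toSubmodule _).mp (hs ▸ Submodule.subset_span hg)
    · have : f ∈ Submodule.span (GaloisRep.ratLocalizedAt p) (s : Set (W → Ω)) := hs.symm ▸ hf
      obtain ⟨c, -, hc⟩ := Submodule.mem_span_finset.mp this
      exact ⟨fun g => algebraMap _ Ω (c g), fun g _ => algebraMap_mem h _,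
        by rw [← hc]; exact Finset.sum_congr rfl fun g _ => (algebraMap_smul Ω (c g) g).symm⟩
  obtain ⟨t, ⟨htM, htspan⟩, htc⟩ := Nat.find_spec hex
  have hli : LinearIndependent Ω (fun g : t => (g : W → Ω)) := by
    rw [Fintype.linearIndependent_iff]
    intro a ha
    by_contra! hcon
    obtain ⟨j, hj⟩ := hcon
    obtain ⟨g₀, -, hmax⟩ := (Finset.univ : Finset t).exists_max_image
      (fun g => A.valuation (a g)) ⟨j, Finset.mem_univ j⟩
    have hg₀ : a g₀ ≠ 0 := fun e => hj (by
      have := hmax j (Finset.mem_univ j)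
      rw [e, map_zero, nonpos_iff_eq_zero, map_eq_zero] at this
      exact this)
    -- `g₀` is an integral combination of the others
    refine Nat.find_min hex (m := (t.erase g₀).card) (by
      rw [← htc]; exact Finset.card_erase_lt_of_mem g₀.2) ⟨_, ⟨fun g hg => ?_, fun f hf => ?_⟩, rfl⟩
    · exact htM (Finset.mem_of_mem_erase hg)
    · obtain ⟨c, hc, e⟩ := htspan f hf
      let a' : (W → Ω) → Ω := fun g => if hg : g ∈ t then a ⟨g, hg⟩ else 0
      have ha' : ∑ g ∈ t, a' g • g = 0 := by
        rw [← ha, ← Finset.sum_coe_sort t]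
        exact Finset.sum_congr rfl fun g _ => by simp [a', g.2]
      have ha0 : a' g₀ = a g₀ := by simp [a', g₀.2]
      refine ⟨fun g => c g - c g₀ * (a' g / a g₀), fun g hg => ?_, ?_⟩
      · obtain ⟨-, hgt⟩ := Finset.mem_erase.mp hg
        refine sub_mem (hc g hgt) (mul_mem (hc g₀ g₀.2) ?_)
        rw [← A.valuation_le_one_iff, map_div₀, div_le_one₀ ((Valuation.pos_iff _).mpr hg₀)]
        simpa [a', hgt] using hmax ⟨g, hgt⟩ (Finset.mem_univ _)
      · rw [Finset.sum_erase t (a := (g₀ : W → Ω))
          (by beta_reduce; rw [ha0, div_self hg₀, mul_one, sub_self, zero_smul])]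
        simp only [sub_smul, mul_smul, Finset.sum_sub_distrib, ← Finset.smul_sum]
        rw [← e, show ∑ g ∈ t, (a' g / a g₀) • g = (a g₀)⁻¹ • ∑ g ∈ t, a' g • g by
          rw [Finset.smul_sum]
          exact Finset.sum_congr rfl fun g _ => by rw [smul_smul, div_eq_inv_mul], ha', smul_zero,
          smul_zero, sub_zero]
  have hrange : Set.range (fun g : t => (g : W → Ω)) = ↑t := Subtype.range_coe
  have hsp : ⊤ ≤ Submodule.span Ω (Set.range fun g : t => (g : W → Ω)) := by
    rw [hrange, ← span_eq_top hM, Submodule.span_le]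
    intro f hf
    obtain ⟨c, -, rfl⟩ := htspan f hf
    exact Submodule.sum_mem _ fun g hg => Submodule.smul_mem _ _ (Submodule.subset_span hg)
  refine ⟨t, inferInstance, Basis.mk hli hsp, ⟨fun i => ?_, fun f hf i => ?_⟩⟩
  · rw [Basis.mk_apply]; exact htM i.2
  · obtain ⟨c, hc, e⟩ := htspan f hf
    have : f = ∑ g : t, c g • Basis.mk hli hsp g := by
      simp only [Basis.mk_apply]
      rw [e, ← Finset.sum_coe_sort t]
    rw [this, Basis.repr_sum_self]
    exact hc i i.2

variable {ι : Type} [Fintype ι] {b : Basis ι Ω (W → Ω)} (hb : IsLatticeBasis A M b)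
include hM hb

omit [Finite W] [Fact (Nat.Prime p)] h in
/-- The coordinates of a function of the model are rational. -/
lemma repr_fixed {f : W → Ω} (hf : f ∈ M) (i : ι) (σ : G_ℚ) : σ (b.repr f i) = b.repr f i := by
  have e : f = ∑ j, σ (b.repr f j) • b j := by
    funext y
    obtain ⟨x, rfl⟩ : ∃ x, act σ x = y := ⟨act σ⁻¹ y, by
      show (act σ * act σ⁻¹) y = y
      rw [← map_mul, mul_inv_cancel, map_one]; rfl⟩
    conv_lhs => rw [hM.equiv f hf, ← b.sum_repr f]
    simp only [Finset.sum_apply, Pi.smul_apply, smul_eq_mul, map_sum, map_mul]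
    exact Finset.sum_congr rfl fun j _ => by rw [hM.equiv _ (hb.mem j)]
  conv_rhs => rw [e, Basis.repr_sum_self]

omit [AddCommGroup W] [Finite W] hM [Fact (Nat.Prime p)] h in
/-- The values of the model are integral. -/
lemma value_mem {f : W → Ω} (hf : f ∈ M) (x : W) : f x ∈ A := by
  have hbx : ∀ i, b i x ∈ A := mem_of_sq_mem_span _ fun i =>
    ⟨fun j => b.repr (b i * b i) j, fun j => hb.repr_mem _ (M.mul_mem (hb.mem i) (hb.mem i)) j, by
      conv_lhs => rw [← Pi.mul_apply, ← b.sum_repr (b i * b i)]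
      simp⟩
  rw [← b.sum_repr f, Finset.sum_apply]
  exact sum_mem fun i _ => mul_mem (hb.repr_mem f hf i) (hbx i)

omit h hM hb in
/-- Convolution of functionals. -/
def convol (u v : Dual Ω (W → Ω)) : Dual Ω (W → Ω) where
  toFun f := u fun x => v fun y => f (x + y)
  map_add' f g := by
    rw [← map_add]
    congr 1
    funext x
    rw [Pi.add_apply, ← map_add]
    rfl
  map_smul' t f := by
    rw [RingHom.id_apply, ← map_smul]
    congr 1
    funext x
    rw [Pi.smul_apply, ← map_smul]
    rfl

omit h hM hb [Finite W] in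
lemma convol_apply (u v : Dual Ω (W → Ω)) (f : W → Ω) :
    convol u v f = u fun x => v fun y => f (x + y) := rfl

omit h hM hb [Finite W] in
lemma convol_sum {n : ℕ} (a c : Fin n → W → Ω) {f : W → Ω}
    (e : ∀ x y, f (x + y) = ∑ i, a i x * c i y) (u v : Dual Ω (W → Ω)) :
    convol u v f = ∑ i, u (a i) * v (c i) := by
  have e1 : (fun x => v fun y => f (x + y)) = ∑ i, v (c i) • a i := by
    funext x
    rw [show (fun y => f (x + y)) = ∑ i, a i x • c i by funext y; simp [e], map_sum]
    simp [mul_comm]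
  rw [convol_apply, e1, map_sum]
  simp [mul_comm]

variable [Module (ZMod p) W]

omit h hM hb in
/-- A character, as a function. -/
def chi (η : Dual (ZMod p) W) : W → Ω := fun x => mu p (η x)

omit h hM hb [Finite W] in
lemma chi_apply (η : Dual (ZMod p) W) (x : W) : chi η x = mu p (η x) := rfl

omit h hM hb [Finite W] in
lemma chi_add (η η' : Dual (ZMod p) W) : chi (η + η') = chi η * chi η' :=
  funext fun x => by simp [chi, mu_add]

omit h hM hb [Finite W] in
lemma chi_zero : chi (0 : Dual (ZMod p) W) = 1 := funext fun x => by simp [chi, mu_zero]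

omit h hM hb [Finite W] in
lemma convol_chi (u v : Dual Ω (W → Ω)) (η : Dual (ZMod p) W) :
    convol u v (chi η) = u (chi η) * v (chi η) := by
  have e : (fun x => v fun y => chi η (x + y)) = v (chi η) • chi η := by
    funext x
    rw [show (fun y => chi η (x + y)) = chi η x • chi η by funext y; simp [chi, mu_add],
      map_smul]
    simp [mul_comm]
  rw [convol_apply, e, map_smul]
  simp [mul_comm]

omit [Finite W] h in
/-- **Characters are integral.** -/
theorem repr_chi_mem (η : Dual (ZMod p) W) (i : ι) : b.repr (chi η) i ∈ A := by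
  refine mem_of_sq_mem_span (fun j => b.repr (chi η) j) (fun j => ?_) i
  refine ⟨fun l => convol (b.coord j) (b.coord j) (b l), fun l => ?_, ?_⟩
  · obtain ⟨n, a, c, ha, hc, e⟩ := hM.comul _ (hb.mem l)
    beta_reduce
    rw [convol_sum a c e]
    exact sum_mem fun m _ => mul_mem (hb.repr_mem _ (ha m) j) (hb.repr_mem _ (hc m) j)
  · have e := convol_chi (b.coord j) (b.coord j) η
    simp only [Basis.coord_apply] at e
    rw [← e]
    conv_lhs => rw [← b.sum_repr (chi η), map_sum]
    simp [mul_comm]

omit h hM hb in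
/-- Characters form a basis. -/
lemma exists_charBasis : ∃ B : Basis (Dual (ZMod p) W) Ω (W → Ω), ∀ η, B η = chi η := by
  classical
  have : Fintype W := Fintype.ofFinite W
  have : Module.Finite (ZMod p) W := Module.Finite.of_finite
  have : Finite (Dual (ZMod p) W) := Module.finite_of_finite (ZMod p)
  have : Fintype (Dual (ZMod p) W) := Fintype.ofFinite _
  let toHom : Dual (ZMod p) W → (Multiplicative W →* Ω) := fun η =>
    { toFun := fun x => mu p (η x.toAdd)
      map_one' := by simp [mu_zero]
      map_mul' := fun x y => by simp [mu_add] }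
  have hinj : Function.Injective toHom := fun η η' e => LinearMap.ext fun x =>
    mu_injective (DFunLike.congr_fun e (Multiplicative.ofAdd x))
  have hli : LinearIndependent Ω (fun η : Dual (ZMod p) W => chi η) :=
    (linearIndependent_monoidHom (Multiplicative W) Ω).comp toHom hinj
  have hcard : Fintype.card (Dual (ZMod p) W) = finrank Ω (W → Ω) := by
    rw [finrank_pi]
    exact Fintype.card_congr (finBasis (ZMod p) W).toDualEquiv.toEquiv.symm
  exact ⟨basisOfLinearIndependentOfCardEqFinrank hli hcard, fun η => by simp⟩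

omit h hM hb in
/-- Functionals agreeing on characters are equal. -/
lemma dual_ext {u v : Dual Ω (W → Ω)} (e : ∀ η : Dual (ZMod p) W, u (chi η) = v (chi η)) :
    u = v := by
  obtain ⟨B, hB⟩ := exists_charBasis (p := p) (W := W)
  exact B.ext fun η => by rw [hB]; exact e η

omit h hM hb in
/-- Characters separate points. -/
lemma exists_dual_ne {x y : W} (hxy : x ≠ y) : ∃ η : Dual (ZMod p) W, η x ≠ η y := by
  have : Module.Finite (ZMod p) W := Module.Finite.of_finite
  by_contra! hcon
  exact hxy (sub_eq_zero.mp ((Module.forall_dual_apply_eq_zero_iff (ZMod p) _).mp fun η => by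
    rw [map_sub, hcon η, sub_self]))

/-- **Distinct points differ at depth at most `1 / (p - 1)`.** -/
theorem eq_of_forall_near {x y : W} {γ : ℚ} (hγ : rootGap p < γ)
    (hn : ∀ i, Near A p γ (b i x - b i y)) : x = y := by
  by_contra hxy
  obtain ⟨η, hη⟩ := exists_dual_ne (p := p) hxy
  refine hη (eq_of_near_mu h hγ ?_)
  have e : mu p (η x) - mu p (η y) = ∑ i, b.repr (chi η) i * (b i x - b i y) := by
    rw [← chi_apply, ← chi_apply]
    conv_lhs => rw [← b.sum_repr (chi η)]
    simp [Finset.sum_apply, mul_sub]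
  rw [e]
  exact h.near_sum _ _ fun i _ => h.near_mul_left (repr_chi_mem hM hb η i) (hn i)

end Fermat.Agent.RowS56
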