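import Fermat.Agent.RowS56.Model.Bound
import Fermat.Agent.Deform.TWInertia
import Fermat.Agent.EllLocal.TameChar

/-!
# Connected points of a model

The points congruent to the origin form a subgroup containing `σ x - x` for `σ` in inertia.  For
`p ≥ 3` it contains no non-zero point fixed by inertia and is killed by every functional invariant
under inertia.
-/

noncomputable section

namespace Fermat.Agent.RowS56

open Fermat.Agent.FlatJ0 Fermat.Agent.GalCoh.Descent Module ExtCitation

local notation "Ω" => AlgebraicClosure ℚ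
local notation "G_ℚ" => (AlgebraicClosure ℚ) ≃ₐ[ℚ] (AlgebraicClosure ℚ)

variable {A : ValuationSubring Ω} {p : ℕ} [Fact p.Prime]

/-- Inertia at `p` maps onto `(ℤ/p)ˣ`. -/
lemma exists_inertia_cycloChar (hA : A.LiesOverPrime p) (u : (ZMod p)ˣ) :
    ∃ σ ∈ A.inertiaSubgroupIn ℚ, cycloChar p σ = u :=
  Deform.exists_inertia_cyclo_eq (Fact.out : p.Prime) (c := cycloChar p) (fun σ μ hμ => by
    obtain ⟨x, rfl⟩ := exists_mu_eq hμ
    rw [apply_mu, ← mu_natCast_mul, ZMod.natCast_zmod_val]) hA u

variable {W : Type} [AddCommGroup W]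

/-- The point is congruent to the origin. -/
def Conn (A : ValuationSubring Ω) (M : Subalgebra (GaloisRep.ratLocalizedAt p) (W → Ω)) (x : W) :
    Prop :=
  ∀ f ∈ M, A.valuation (f x - f 0) < 1

/-- Pulling back functions. -/
def pullback {W' : Type} (g : W' → W) :
    (W → Ω) →ₐ[GaloisRep.ratLocalizedAt p] (W' → Ω) :=
  AlgHom.pi fun x => Pi.evalAlgHom _ _ (g x)

omit [Fact (Nat.Prime p)] [AddCommGroup W] in
lemma pullback_apply {W' : Type} (g : W' → W) (f : W → Ω) (x : W') :
    pullback (p := p) g f x = f (g x) := rfl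

variable [Finite W] {act : G_ℚ →* AddMonoid.End W}
  {M : Subalgebra (GaloisRep.ratLocalizedAt p) (W → Ω)}

omit [Fact (Nat.Prime p)] [Finite W] in
/-- A stable subgroup has a model. -/
theorem IsModel.pullback (hM : IsModel p act M) {W' : Type} [AddCommGroup W'] (g : W' →+ W)
    (hg : Function.Injective g) {act' : G_ℚ →* AddMonoid.End W'}
    (heq : ∀ σ x, g (act' σ x) = act σ (g x)) :
    IsModel p act' (M.map (RowS56.pullback g)) where
  fg := by
    rw [Subalgebra.map_toSubmodule]
    exact hM.fg.map _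
  equiv := by
    rintro _ ⟨f, hf, rfl⟩ σ x
    show f (g (act' σ x)) = σ (f (g x))
    rw [heq, hM.equiv f hf]
  sep x y hxy := hg (hM.sep _ _ fun f hf => hxy _ ⟨f, hf, rfl⟩)
  comul := by
    rintro _ ⟨f, hf, rfl⟩
    obtain ⟨n, a, b, ha, hb, h⟩ := hM.comul f hf
    exact ⟨n, fun i => RowS56.pullback (p := p) g (a i), fun i => RowS56.pullback (p := p) g (b i),
      fun i => ⟨_, ha i, rfl⟩, fun i => ⟨_, hb i, rfl⟩,
      fun x y => by simp [pullback_apply, map_add, h]⟩

omit [Fact (Nat.Prime p)] [Finite W] in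
lemma Conn.pullback {W' : Type} [AddCommGroup W'] (g : W' →+ W) {x : W'}
    (hx : Conn A M (g x)) : Conn A (M.map (RowS56.pullback g)) x := by
  rintro _ ⟨f, hf, rfl⟩
  show A.valuation (f (g x) - f (g 0)) < 1
  rw [map_zero]
  exact hx f hf

omit [Fact (Nat.Prime p)] [Finite W] in
lemma conn_zero : Conn A M 0 := fun f _ => by rw [sub_self, map_zero]; exact zero_lt_one

variable (h : IsOver A p) (hM : IsModel p act M)
include h hM

omit [Fact (Nat.Prime p)] in
lemma value_le_one {f : W → Ω} (hf : f ∈ M) (x : W) : A.valuation (f x) ≤ 1 := by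
  obtain ⟨ι, _, b, hb⟩ := exists_latticeBasis h hM
  exact (A.valuation_le_one_iff _).mpr (value_mem hb hf x)

lemma Conn.add {x y : W} (hx : Conn A M x) (hy : Conn A M y) : Conn A M (x + y) := fun f hf => by
  obtain ⟨n, a, c, ha, hc, e⟩ := hM.comul f hf
  have e0 : f 0 = f (0 + 0) := by rw [add_zero]
  rw [e0, e, e, ← Finset.sum_sub_distrib]
  refine A.valuation.map_sum_lt one_ne_zero fun i _ => ?_
  rw [show a i x * c i y - a i 0 * c i 0 = (a i x - a i 0) * c i y + a i 0 * (c i y - c i 0) by ring]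
  refine A.valuation.map_add_lt ?_ ?_
  · rw [map_mul]
    exact lt_of_le_of_lt (mul_le_of_le_one_right zero_le (value_le_one h hM (hc i) y))
      (hx _ (ha i))
  · rw [map_mul]
    exact lt_of_le_of_lt (mul_le_of_le_one_left zero_le (value_le_one h hM (ha i) 0))
      (hy _ (hc i))

/-- `σ x - x` is congruent to the origin. -/
theorem conn_act_sub {σ : G_ℚ} (hσ : σ ∈ A.inertiaSubgroupIn ℚ) (x : W) :
    Conn A M (act σ x - x) := fun f hf => by
  obtain ⟨n, a, c, ha, hc, e⟩ := hM.comul f hf
  have e0 : f 0 = f (x + -x) := by rw [add_neg_cancel]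
  rw [sub_eq_add_neg (act σ x), e0, e, e, ← Finset.sum_sub_distrib]
  refine A.valuation.map_sum_lt one_ne_zero fun i _ => ?_
  rw [← sub_mul, map_mul, hM.equiv _ (ha i)]
  exact lt_of_le_of_lt (mul_le_of_le_one_right zero_le (value_le_one h hM (hc i) _))
    (MultRed.inertia_residue hσ _ (value_le_one h hM (ha i) x))

/-- The subgroup generated by the `σ x - x` is congruent to the origin. -/
theorem conn_of_mem_closure {y : W}
    (hy : y ∈ AddSubmonoid.closure {y | ∃ σ ∈ A.inertiaSubgroupIn ℚ, ∃ x, act σ x - x = y}) :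
    Conn A M y := by
  induction hy using AddSubmonoid.closure_induction with
  | mem y hy => obtain ⟨σ, hσ, x, rfl⟩ := hy; exact conn_act_sub h hM hσ x
  | zero => exact conn_zero
  | add a b _ _ ha hb => exact ha.add h hM hb

variable [Module (ZMod p) W] (hp3 : 3 ≤ p)
include hp3

/-- **A functional invariant under inertia kills the connected points.** -/
theorem dual_eq_zero_of_conn (η : Dual (ZMod p) W)
    (hη : ∀ σ ∈ A.inertiaSubgroupIn ℚ, ∀ x, η (act σ x) = η x) {x : W} (hx : Conn A M x) :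
    η x = 0 := by
  classical
  obtain ⟨ι, _, b, hb⟩ := exists_latticeBasis h hM
  have hp : p.Prime := Fact.out
  -- conjugates of the coordinates
  have hgal : ∀ σ ∈ A.inertiaSubgroupIn ℚ, ∀ (j : ZMod p) (i : ι),
      b.repr (chi (((cycloChar p σ : ZMod p) * j) • η)) i = σ (b.repr (chi (j • η)) i) := by
    intro σ hσ j i
    have e : chi (((cycloChar p σ : ZMod p) * j) • η) = ∑ l, σ (b.repr (chi (j • η)) l) • b l := by
      funext y
      obtain ⟨x', rfl⟩ : ∃ x', act σ x' = y := ⟨act σ⁻¹ y, by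
        show (act σ * act σ⁻¹) y = y
        rw [← map_mul, mul_inv_cancel, map_one]; rfl⟩
      rw [chi_apply, LinearMap.smul_apply, hη σ hσ x', smul_eq_mul, mul_assoc, ← apply_mu,
        ← smul_eq_mul, ← LinearMap.smul_apply, ← chi_apply]
      conv_lhs => rw [← b.sum_repr (chi (j • η))]
      simp only [Finset.sum_apply, Pi.smul_apply, smul_eq_mul, map_sum, map_mul]
      exact Finset.sum_congr rfl fun l _ => by rw [hM.equiv _ (hb.mem l)]
    rw [e, Basis.repr_sum_self]
  have hone : ∀ i, b.repr (1 : W → Ω) i ∈ A := hb.repr_mem _ M.one_mem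
  -- products of lattice elements
  have hprod : ∀ f g : W → Ω, (∀ i, A.valuation (b.repr f i) < 1) → (∀ i, b.repr g i ∈ A) →
      ∀ i, A.valuation (b.repr (f * g) i) < 1 := by
    intro f g hf hg i
    have e : f * g = ∑ l, ∑ m, (b.repr f l * b.repr g m) • (b l * b m) := by
      conv_lhs => rw [← b.sum_repr f, ← b.sum_repr g, Finset.sum_mul_sum]
      simp only [smul_mul_smul_comm]
    rw [e]
    simp only [map_sum, map_smul, Finsupp.coe_finsetSum, Finset.sum_apply, Finsupp.coe_smul,
      Pi.smul_apply, smul_eq_mul]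
    refine A.valuation.map_sum_lt one_ne_zero fun l _ => A.valuation.map_sum_lt one_ne_zero
      fun m _ => ?_
    rw [map_mul, map_mul, mul_assoc]
    exact lt_of_le_of_lt (mul_le_of_le_one_right zero_le (mul_le_one'
      ((A.valuation_le_one_iff _).mpr (hg m))
      ((A.valuation_le_one_iff _).mpr (hb.repr_mem _ (M.mul_mem (hb.mem l) (hb.mem m)) i)))) (hf l)
  let S : ZMod p → Prop := fun j => ∀ i, A.valuation (b.repr (chi (j • η) - 1) i) < 1
  have hSadd : ∀ j j', S j → S j' → S (j + j') := fun j j' hj hj' i => by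
    rw [show chi ((j + j') • η) - 1 = (chi (j • η) - 1) * chi (j' • η) + (chi (j' • η) - 1) by
      rw [add_smul, chi_add]; ring, map_add, Finsupp.add_apply]
    exact A.valuation.map_add_lt (hprod _ _ hj (repr_chi_mem hM hb _) i) (hj' i)
  -- a non-zero element of `S`
  obtain ⟨u, hu0, hu⟩ : ∃ u, u ≠ 0 ∧ S u := by
    have h2 : (2 : ZMod p) ≠ 0 := fun e => by
      have : ((2 : ℕ) : ZMod p) = 0 := by simpa using e
      have := Nat.le_of_dvd two_pos ((ZMod.natCast_eq_zero_iff 2 p).mp this)
      omega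
    obtain ⟨τ, hτ, hτu⟩ := exists_inertia_cycloChar h.liesOver (Units.mk0 (2 : ZMod p) h2)
    refine ⟨1, one_ne_zero, fun i => ?_⟩
    have e : chi ((1 : ZMod p) • η) - 1 =
        (chi ((2 : ZMod p) • η) - chi ((1 : ZMod p) • η)) * chi (-((1 : ZMod p) • η)) := by
      rw [sub_mul, ← chi_add, ← chi_add, add_neg_cancel, chi_zero, one_smul, two_smul,
        add_neg_cancel_right]
    rw [e]
    refine hprod _ _ (fun l => ?_) (repr_chi_mem hM hb _) i
    rw [map_sub, Finsupp.sub_apply, show (2 : ZMod p) = (cycloChar p τ : ZMod p) * 1 by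
      rw [hτu, Units.val_mk0, mul_one], hgal τ hτ]
    exact MultRed.inertia_residue hτ _
      ((A.valuation_le_one_iff _).mpr (repr_chi_mem hM hb _ l))
  have hSmul : ∀ n : ℕ, S ((n : ZMod p) * u) := by
    intro n
    induction n with
    | zero => intro i; simp [chi_zero]
    | succ n ih => rw [Nat.cast_succ, add_mul, one_mul]; exact hSadd _ _ ih hu
  have hS : ∀ j, S j := fun j => by
    have := hSmul (j * u⁻¹).val
    rwa [ZMod.natCast_zmod_val, mul_assoc, inv_mul_cancel₀ hu0, mul_one] at this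
  -- each coordinate is divisible by `ζ - 1`
  set z : Ω := mu p (1 : ZMod p) - mu p 0 with hz
  obtain ⟨hz0, hzo⟩ := ord_mu_sub h (one_ne_zero (α := ZMod p))
  set a : ι → Ω := fun i => b.repr (chi ((1 : ZMod p) • η) - 1) i with ha
  have hav : ∀ i, A.valuation (a i) ≤ A.valuation z := by
    intro i
    rcases eq_or_ne (a i) 0 with e | e
    · rw [e, map_zero]; exact zero_le
    have hconj : ∀ σ ∈ A.inertiaSubgroupIn ℚ, ∀ v : ZMod p,
        σ (b.repr (chi (v • η) - 1) i) =
          b.repr (chi (((cycloChar p σ : ZMod p) * v) • η) - 1) i := fun σ hσ v => by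
      rw [map_sub, Finsupp.sub_apply, map_sub, ← hgal σ hσ, repr_fixed hM hb M.one_mem,
        map_sub, Finsupp.sub_apply]
    set P : Ω := ∏ v : (ZMod p)ˣ, b.repr (chi ((v : ZMod p) • η) - 1) i with hP
    have hfac : ∀ v : (ZMod p)ˣ, b.repr (chi ((v : ZMod p) • η) - 1) i ≠ 0 ∧
        ord A p (b.repr (chi ((v : ZMod p) • η) - 1) i) = ord A p (a i) := fun v => by
      obtain ⟨σ, hσ, hσv⟩ := exists_inertia_cycloChar h.liesOver v
      have e2 := hconj σ hσ 1
      rw [hσv, mul_one] at e2
      rw [← e2]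
      exact ⟨(map_ne_zero σ).mpr e, h.ord_apply (MultRed.inertia_mem_decomposition hσ) _⟩
    obtain ⟨m, hm⟩ := h.exists_ord_eq_int (x := P) fun σ hσ => by
      rw [hP, map_prod]
      simp only [hconj σ hσ]
      exact Fintype.prod_equiv (Equiv.mulLeft (cycloChar p σ)) _ _ fun v => by simp
    rw [hP, h.ord_prod _ _ fun v _ => (hfac v).1, Finset.sum_congr rfl fun v _ => (hfac v).2,
      Finset.sum_const, Finset.card_univ, ZMod.card_units, nsmul_eq_mul] at hm
    have hpos : 0 < ord A p (a i) := (h.nonunit_iff e).mp (A.mem_nonunits_iff.mpr (hS 1 i))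
    have hp1 : (0 : ℚ) < ((p - 1 : ℕ) : ℚ) := by exact_mod_cast (show 0 < p - 1 by omega)
    have hm1 : (1 : ℚ) ≤ m := by
      have : (0 : ℚ) < m := hm ▸ mul_pos hp1 hpos
      exact_mod_cast (Int.cast_pos.mp this : 0 < m)
    rw [h.valuation_le_iff e hz0, hzo, rootGap, div_le_iff₀ (by
      have : (3 : ℚ) ≤ p := by exact_mod_cast hp3
      linarith)]
    rw [Nat.cast_sub hp.one_le, Nat.cast_one, mul_comm] at hm
    linarith
  -- evaluate at `x`
  by_contra hne
  have e : mu p (η x) - mu p 0 = ∑ i, a i * (b i x - b i 0) := by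
    have e1 : ∀ y, ∑ i, a i * b i y = mu p (η y) - 1 := fun y => by
      have := congrFun (b.sum_repr (chi ((1 : ZMod p) • η) - 1)) y
      simpa [a, Finset.sum_apply, chi] using this
    simp only [mul_sub, Finset.sum_sub_distrib, e1, map_zero, mu_zero, sub_self, sub_zero]
  obtain ⟨h0, ho⟩ := ord_mu_sub h hne
  refine ((h.valuation_eq_iff h0 hz0).mpr (ho.trans hzo.symm)).not_lt ?_
  rw [e]
  refine A.valuation.map_sum_lt (A.valuation.ne_zero_iff.mpr hz0) fun i _ => ?_
  rw [map_mul]
  calc A.valuation (a i) * A.valuation (b i x - b i 0)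
      ≤ A.valuation z * A.valuation (b i x - b i 0) := mul_le_mul_of_nonneg_right (hav i) zero_le
    _ < A.valuation z * 1 :=
      mul_lt_mul_of_pos_left (hx _ (hb.mem i)) ((Valuation.pos_iff _).mpr hz0)
    _ = A.valuation z := mul_one _

end Fermat.Agent.RowS56
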