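import Fermat.Agent.RowS56.Model.Lattice

/-!
# The model of a flat representation
-/

noncomputable section

namespace Fermat.Agent.RowS56

open scoped TensorProduct

local notation "Ω" => AlgebraicClosure ℚ
local notation "G_ℚ" => (AlgebraicClosure ℚ) ≃ₐ[ℚ] (AlgebraicClosure ℚ)

/-- An automorphism of `ℚ̄` is linear over `ℤ_(p)`. -/
def galHom (p : ℕ) (σ : G_ℚ) : Ω →ₐ[GaloisRep.ratLocalizedAt p] Ω :=
  { (σ : Ω →+* Ω) with commutes' := fun r => σ.commutes (r : ℚ) }

variable {B : Type} [CommRing B] [IsLocalRing B]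

/-- **A flat representation has models at every finite level.** -/
theorem exists_isModel_of_flat {ρ : GaloisRepAdic B} {p : ℕ} (hflat : ρ.IsFlatAt p) (J : Ideal B)
    (hJ : Finite (B ⧸ J)) {W : Type} [AddCommGroup W] (act : G_ℚ →* AddMonoid.End W)
    (ψ : W ≃+ (ρ.V ⧸ (J • (⊤ : Submodule B ρ.V))))
    (hψ : ∀ σ x, ψ (act σ x) = ρ.levelAction J σ (ψ x)) :
    ∃ M, IsModel p act M := by
  obtain ⟨H, _, _, hfin, -, -, e, hadd, hgal⟩ := hflat.2 J hJ
  let Φ : H →ₐ[GaloisRep.ratLocalizedAt p] (W → Ω) := AlgHom.pi fun x => (e.symm (ψ x)).ofConv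
  have hΦ : ∀ c x, Φ c x = (e.symm (ψ x)).ofConv c := fun c x => rfl
  refine ⟨Φ.range, ⟨?_, ?_, fun x y hxy => ?_, ?_⟩⟩
  · rw [show Subalgebra.toSubmodule Φ.range = LinearMap.range Φ.toLinearMap from
      SetLike.ext fun f => Iff.rfl, ← Submodule.map_top]
    exact hfin.fg_top.map _
  · rintro _ ⟨c, rfl⟩ σ x
    show (e.symm (ψ (act σ x))).ofConv c = σ ((e.symm (ψ x)).ofConv c)
    let g : WithConv (H →ₐ[GaloisRep.ratLocalizedAt p] Ω) :=
      WithConv.toConv ((galHom p σ).comp (e.symm (ψ x)).ofConv)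
    have hg : e g = ρ.levelAction J σ (ψ x) := by
      conv_rhs => rw [← e.apply_symm_apply (ψ x)]
      exact hgal σ _ _ fun _ => rfl
    rw [hψ, ← hg, e.symm_apply_apply]
    rfl
  · refine ψ.injective (e.symm.injective (WithConv.ofConv_injective (AlgHom.ext fun c => ?_)))
    exact hxy _ ⟨c, rfl⟩
  · rintro _ ⟨c, rfl⟩
    obtain ⟨S, hS⟩ := TensorProduct.exists_finset (R := GaloisRep.ratLocalizedAt p)
      (CoalgebraStruct.comul c : H ⊗[GaloisRep.ratLocalizedAt p] H)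
    refine ⟨S.card, fun i => Φ (S.equivFin.symm i).1.1, fun i => Φ (S.equivFin.symm i).1.2,
      fun i => ⟨_, rfl⟩, fun i => ⟨_, rfl⟩, fun x y => ?_⟩
    have hmul : e.symm (ψ (x + y)) = e.symm (ψ x) * e.symm (ψ y) := e.injective (by
      rw [hadd, e.apply_symm_apply, e.apply_symm_apply, e.apply_symm_apply, map_add])
    show (e.symm (ψ (x + y))).ofConv c = ∑ i, Φ (S.equivFin.symm i).1.1 x *
      Φ (S.equivFin.symm i).1.2 y
    simp only [hΦ]
    rw [hmul, AlgHom.convMul_apply, hS, map_sum]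
    simp only [Algebra.TensorProduct.lift_tmul]
    rw [← Finset.sum_coe_sort S]
    exact (S.equivFin.symm.sum_comp fun s : S =>
      (e.symm (ψ x)).ofConv s.1.1 * (e.symm (ψ y)).ofConv s.1.2).symm

end Fermat.Agent.RowS56
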