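import Fermat.Agent.RowS56.Model.Lattice
import Mathlib.Algebra.Ring.GeomSum
import Mathlib.Data.Nat.Choose.Dvd

/-!
# `p`-th roots in the lattice of a model

A functional close to the unit has, for the convolution product, a `p`-th root close to the unit:
Newton's iteration converges on every character.
-/

noncomputable section

namespace Fermat.Agent.RowS56

open Fermat.Agent.FlatJ0 Fermat.Agent.GalCoh.Descent Module

local notation "Ω" => AlgebraicClosure ℚ
local notation "G_ℚ" => (AlgebraicClosure ℚ) ≃ₐ[ℚ] (AlgebraicClosure ℚ)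

variable {A : ValuationSubring Ω} {p : ℕ} [Fact p.Prime] {W : Type} [AddCommGroup W]
  [Module (ZMod p) W] [Finite W] {act : G_ℚ →* AddMonoid.End W}
  {M : Subalgebra (GaloisRep.ratLocalizedAt p) (W → Ω)} {ι : Type} [Fintype ι]
  {b : Basis ι Ω (W → Ω)}

/-- The basis of characters. -/
def charBasis (p : ℕ) [Fact p.Prime] (W : Type) [AddCommGroup W] [Module (ZMod p) W] [Finite W] :
    Basis (Dual (ZMod p) W) Ω (W → Ω) :=
  (exists_charBasis (p := p) (W := W)).choose

lemma charBasis_apply (η : Dual (ZMod p) W) : charBasis p W η = chi η :=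
  (exists_charBasis (p := p) (W := W)).choose_spec η

/-- The functional with given values on characters. -/
def ofT (T : Dual (ZMod p) W → Ω) : Dual Ω (W → Ω) := (charBasis p W).constr Ω T

@[simp] lemma ofT_chi (T : Dual (ZMod p) W → Ω) (η : Dual (ZMod p) W) : ofT T (chi η) = T η := by
  rw [ofT, ← charBasis_apply, Basis.constr_basis]

lemma ofT_add (T T' : Dual (ZMod p) W → Ω) : ofT (T + T') = ofT T + ofT T' :=
  dual_ext (p := p) fun η => by simp

lemma ofT_sub (T T' : Dual (ZMod p) W → Ω) : ofT (T - T') = ofT T - ofT T' :=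
  dual_ext (p := p) fun η => by simp

lemma ofT_smul (t : Ω) (T : Dual (ZMod p) W → Ω) : ofT (t • T) = t • ofT T :=
  dual_ext (p := p) fun η => by simp

lemma ofT_zero : ofT (0 : Dual (ZMod p) W → Ω) = 0 := dual_ext (p := p) fun η => by simp

lemma ofT_mul (T T' : Dual (ZMod p) W → Ω) : ofT (T * T') = convol (ofT T) (ofT T') :=
  dual_ext (p := p) fun η => by simp [convol_chi]

/-- The transform of a point. -/
def pointT (x : W) : Dual (ZMod p) W → Ω := fun η => chi η x

lemma ofT_pointT (x : W) (f : W → Ω) : ofT (pointT (p := p) x) f = f x := by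
  have : ofT (pointT (p := p) x) = LinearMap.proj x := dual_ext (p := p) fun η => by simp [pointT]
  rw [this]; rfl

omit [Finite W] in
lemma pointT_zero : pointT (p := p) (0 : W) = 1 := funext fun η => by simp [pointT, chi, mu_zero]

omit [Finite W] in
lemma pointT_add (x y : W) : pointT (p := p) (x + y) = pointT x * pointT y :=
  funext fun η => by simp [pointT, chi, mu_add]

/-- Depth in the lattice of integral functionals. -/
def IntNear (A : ValuationSubring Ω) (b : Basis ι Ω (W → Ω)) (c : ℚ)
    (T : Dual (ZMod p) W → Ω) : Prop :=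
  ∀ i, Near A p c (ofT T (b i))

variable (h : IsOver A p) (hM : IsModel p act M) (hb : IsLatticeBasis A M b)
include h hM hb

omit hM in
lemma IntNear.apply {c : ℚ} {T : Dual (ZMod p) W → Ω} (hT : IntNear A b c T) {f : W → Ω}
    (hf : f ∈ M) : Near A p c (ofT T f) := by
  rw [← b.sum_repr f, map_sum]
  refine h.near_sum _ _ fun i _ => ?_
  rw [map_smul, smul_eq_mul]
  exact h.near_mul_left (hb.repr_mem f hf i) (hT i)

omit [Fintype ι] h hM hb in
lemma IntNear.mono {c c' : ℚ} {T : Dual (ZMod p) W → Ω} (hT : IntNear A b c T) (hc : c' ≤ c) :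
    IntNear A b c' T := fun i => (hT i).mono hc

lemma IntNear.value {c : ℚ} {T : Dual (ZMod p) W → Ω} (hT : IntNear A b c T)
    (η : Dual (ZMod p) W) : Near A p c (T η) := by
  rw [← ofT_chi T η, ← b.sum_repr (chi η), map_sum]
  refine h.near_sum _ _ fun i _ => ?_
  rw [map_smul, smul_eq_mul]
  exact h.near_mul_left (repr_chi_mem hM hb η i) (hT i)

omit [Fintype ι] hM hb in
lemma IntNear.add {c : ℚ} {T T' : Dual (ZMod p) W → Ω} (hT : IntNear A b c T)
    (hT' : IntNear A b c T') : IntNear A b c (T + T') := fun i => by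
  rw [ofT_add]; exact h.near_add (hT i) (hT' i)

omit [Fintype ι] hM hb in
lemma IntNear.sub {c : ℚ} {T T' : Dual (ZMod p) W → Ω} (hT : IntNear A b c T)
    (hT' : IntNear A b c T') : IntNear A b c (T - T') := fun i => by
  rw [ofT_sub]; exact h.near_sub (hT i) (hT' i)

omit [Fintype ι] hM hb in
lemma IntNear.smul {c d : ℚ} {t : Ω} {T : Dual (ZMod p) W → Ω} (ht : Near A p c t)
    (hT : IntNear A b d T) : IntNear A b (c + d) (t • T) := fun i => by
  rw [ofT_smul]
  exact h.near_mul ht (hT i)

omit hM hb [Fintype ι] in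
lemma IntNear.sum {c : ℚ} {κ : Type} (s : Finset κ) (T : κ → Dual (ZMod p) W → Ω)
    (hT : ∀ j ∈ s, IntNear A b c (T j)) : IntNear A b c (∑ j ∈ s, T j) := by
  classical
  induction s using Finset.induction_on with
  | empty => intro i; rw [Finset.sum_empty, ofT_zero]; exact near_zero c
  | insert a t ha ih =>
    rw [Finset.sum_insert ha]
    exact (hT a (Finset.mem_insert_self a t)).add h
      (ih fun j hj => hT j (Finset.mem_insert_of_mem hj))

lemma IntNear.mul {c d : ℚ} {T T' : Dual (ZMod p) W → Ω} (hT : IntNear A b c T)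
    (hT' : IntNear A b d T') : IntNear A b (c + d) (T * T') := fun i => by
  obtain ⟨n, a, e, ha, he, hsum⟩ := hM.comul _ (hb.mem i)
  rw [ofT_mul, convol_sum a e hsum]
  exact h.near_sum _ _ fun j _ =>
    h.near_mul (IntNear.apply h hb hT (ha j)) (IntNear.apply h hb hT' (he j))

omit hM in
lemma intNear_pointT (x : W) : IntNear A b 0 (pointT (p := p) x) := fun i => by
  rw [ofT_pointT]; exact h.near_of_mem (value_mem hb (hb.mem i) x)

omit hM in
lemma intNear_one : IntNear A b 0 (1 : Dual (ZMod p) W → Ω) := by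
  rw [← pointT_zero]; exact intNear_pointT h hb 0

lemma IntNear.pow {c : ℚ} {T : Dual (ZMod p) W → Ω} (hT : IntNear A b c T) (n : ℕ) :
    IntNear A b (n * c) (T ^ n) := by
  induction n with
  | zero => rw [pow_zero, Nat.cast_zero, zero_mul]; exact intNear_one h hb
  | succ n ih =>
    rw [pow_succ, Nat.cast_succ, add_mul, one_mul]
    exact IntNear.mul h hM hb ih hT

/-- One step of Newton's iteration. -/
lemma newton_step {γ δ : ℚ} (hγ : (p : ℚ) / (p - 1) < γ) (hδ : γ ≤ δ)
    {S T : Dual (ZMod p) W → Ω} (hT : IntNear A b (γ - 1) (T - 1))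
    (he : IntNear A b δ (T ^ p - S)) :
    ∃ T' : Dual (ZMod p) W → Ω, IntNear A b (γ - 1) (T' - 1) ∧
      IntNear A b (δ + min (γ - 1) (((p : ℚ) - 1) * γ - p)) (T' ^ p - S) := by
  have hp : p.Prime := Fact.out
  have hpQ : (2 : ℚ) ≤ p := by exact_mod_cast hp.two_le
  have hgap := rootGap_pos (p := p)
  have hγ1 : 0 < γ - 1 := by rw [← rootGap_add_one] at hγ; linarith
  set η₀ := min (γ - 1) (((p : ℚ) - 1) * γ - p) with hη₀
  have hη1 : η₀ ≤ γ - 1 := min_le_left _ _
  have hη2 : η₀ ≤ ((p : ℚ) - 1) * γ - p := min_le_right _ _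
  set e := T ^ p - S with he'
  set d : Dual (ZMod p) W → Ω := (-(p : Ω)⁻¹) • e with hd'
  have hd : IntNear A b (δ - 1) d := by
    rw [show δ - 1 = -1 + δ by ring]
    refine IntNear.smul h (Or.inr ?_) he
    rw [h.ord_neg, h.ord_inv h.natCast_ne_zero, h.ord_p]
  have hT0 : IntNear A b 0 T := by
    have := (hT.mono hγ1.le).add h (intNear_one h hb)
    rwa [sub_add_cancel] at this
  have hTn : ∀ n : ℕ, IntNear A b 0 (T ^ n) := fun n => by
    simpa using IntNear.pow h hM hb hT0 n
  refine ⟨T + d, ?_, ?_⟩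
  · rw [add_sub_right_comm]
    exact hT.add h (hd.mono (by linarith))
  obtain ⟨q, hq⟩ : ∃ q, p = q + 1 := ⟨p - 1, by have := hp.one_le; omega⟩
  have hq1 : IntNear A b (γ - 1) (T ^ q - 1) := by
    rw [← geom_sum_mul, show γ - 1 = 0 + (γ - 1) by ring]
    exact IntNear.mul h hM hb (IntNear.sum h _ _ fun n _ => hTn n) hT
  have hmain : (T + d) ^ p - S = (1 - T ^ q) * e +
      ∑ i ∈ Finset.range q, T ^ i * d ^ (p - i) * (p.choose i : Dual (ZMod p) W → Ω) := by
    have e1 : (p.choose q : Dual (ZMod p) W → Ω) * d = -e := by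
      rw [show p.choose q = p by rw [hq, Nat.choose_succ_self_right]]
      funext η
      simp only [d, Pi.mul_apply, Pi.natCast_apply, Pi.smul_apply, smul_eq_mul, Pi.neg_apply]
      field_simp [h.natCast_ne_zero]
    rw [add_pow, show Finset.range (p + 1) = Finset.range (q + 1 + 1) by rw [hq],
      Finset.sum_range_succ, Finset.sum_range_succ, ← hq, Nat.sub_self, pow_zero, mul_one,
      Nat.choose_self, Nat.cast_one, mul_one, show p - q = 1 by omega, pow_one]
    linear_combination T ^ q * e1 - he'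
  rw [hmain]
  refine IntNear.add h ?_ (IntNear.sum h _ _ fun i hi => ?_)
  · refine (IntNear.mul h hM hb (c := γ - 1) (d := δ) ?_ he).mono (by linarith)
    intro j
    rw [show (1 : Dual (ZMod p) W → Ω) - T ^ q = 0 - (T ^ q - 1) by ring, ofT_sub,
      ofT_zero, zero_sub, LinearMap.neg_apply]
    exact h.near_neg (hq1 j)
  · rw [Finset.mem_range] at hi
    have hC : ∀ n : ℕ, (n : Dual (ZMod p) W → Ω) = (n : Ω) • 1 := fun n => by funext η; simp
    rw [hC, mul_smul_comm, mul_one]
    have hprod := IntNear.mul h hM hb (hTn i) (IntNear.pow h hM hb hd (p - i))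
    rcases Nat.eq_zero_or_pos i with rfl | hi0
    · rw [Nat.choose_zero_right, Nat.cast_one, one_smul]
      refine hprod.mono ?_
      rw [Nat.sub_zero, zero_add]
      have := mul_le_mul_of_nonneg_left hδ (by linarith : (0 : ℚ) ≤ (p : ℚ) - 1)
      linarith
    · have hCp : Near A p 1 ((p.choose i : ℕ) : Ω) := by
        obtain ⟨c, hc⟩ := hp.dvd_choose_self hi0.ne' (by omega)
        rw [hc, Nat.cast_mul]
        exact h.near_mul_right (Or.inr h.ord_p.ge) (natCast_mem A c)
      refine (IntNear.smul h hCp hprod).mono ?_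
      have h2i : (2 : ℚ) ≤ ((p - i : ℕ) : ℚ) := by exact_mod_cast (show 2 ≤ p - i by omega)
      have h3 := mul_le_mul_of_nonneg_right h2i (by linarith : (0 : ℚ) ≤ δ - 1)
      linarith

/-- **A `p`-th root of an element close to `1` is close to `1` in the lattice.** -/
theorem intNear_of_pow {γ : ℚ} (hγ : (p : ℚ) / (p - 1) < γ) {T : Dual (ZMod p) W → Ω}
    (hS : IntNear A b γ (T ^ p - 1)) (hval : ∀ η, Near A p (γ - 1) (T η - 1)) :
    IntNear A b (γ - 1) (T - 1) := by
  have hp : p.Prime := Fact.out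
  have hpQ : (2 : ℚ) ≤ p := by exact_mod_cast hp.two_le
  have hgap := rootGap_pos (p := p)
  have hγg : rootGap p < γ - 1 := by rw [← rootGap_add_one] at hγ; linarith
  set η₀ := min (γ - 1) (((p : ℚ) - 1) * γ - p) with hη₀
  have hη0 : 0 < η₀ := by
    refine lt_min (by linarith) ?_
    rw [div_lt_iff₀ (by linarith)] at hγ
    linarith
  have hseq : ∀ n : ℕ, ∃ Tn : Dual (ZMod p) W → Ω, IntNear A b (γ - 1) (Tn - 1) ∧
      IntNear A b (γ + n * η₀) (Tn ^ p - T ^ p) := by
    intro n
    induction n with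
    | zero =>
      refine ⟨1, fun i => ?_, ?_⟩
      · rw [sub_self, ofT_zero]; exact near_zero _
      · rw [Nat.cast_zero, zero_mul, add_zero, one_pow]
        intro i
        rw [ofT_sub, LinearMap.sub_apply]
        have := h.near_neg (hS i)
        rwa [ofT_sub, LinearMap.sub_apply, neg_sub] at this
    | succ n ih =>
      obtain ⟨Tn, h1, h2⟩ := ih
      have hn : (0 : ℚ) ≤ n * η₀ := mul_nonneg (Nat.cast_nonneg n) hη0.le
      obtain ⟨T', h1', h2'⟩ := newton_step h hM hb hγ (by linarith) h1 h2
      refine ⟨T', h1', h2'.mono ?_⟩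
      push_cast
      linarith
  -- bound on the coefficients of the basis in characters
  have : Module.Finite (ZMod p) W := Module.Finite.of_finite
  have : Finite (Dual (ZMod p) W) := Module.finite_of_finite (ZMod p)
  have : Fintype (Dual (ZMod p) W) := Fintype.ofFinite _
  set C : ℚ := ∑ i, ∑ η, |ord A p ((charBasis p W).repr (b i) η)| with hC
  have hcoef : ∀ i η, Near A p (-C) ((charBasis p W).repr (b i) η) := fun i η => by
    refine Or.inr (le_trans (neg_le_neg ?_) (neg_abs_le _))
    refine le_trans ?_ (Finset.single_le_sum (f := fun j => ∑ η, |ord A p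
      ((charBasis p W).repr (b j) η)|) (fun j _ => Finset.sum_nonneg fun _ _ => abs_nonneg _)
      (Finset.mem_univ i))
    exact Finset.single_le_sum (f := fun η => |ord A p ((charBasis p W).repr (b i) η)|)
      (fun η _ => abs_nonneg _) (Finset.mem_univ η)
  obtain ⟨n, hn⟩ := exists_nat_ge (C / η₀)
  rw [div_le_iff₀ hη0] at hn
  obtain ⟨Tn, h1, h2⟩ := hseq n
  have hn0 : (0 : ℚ) ≤ n * η₀ := mul_nonneg (Nat.cast_nonneg n) hη0.le
  have hclose : ∀ η, Near A p (γ + n * η₀ - 1) (Tn η - T η) := fun η => by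
    obtain ⟨hu, hu0⟩ := h.ord_add_eq one_ne_zero (hval η) (by rw [h.ord_one]; linarith)
    rw [add_sub_cancel] at hu hu0
    rw [h.ord_one] at hu0
    have hpow : Near A p (γ + n * η₀) (Tn η ^ p - T η ^ p) := by
      have := IntNear.value h hM hb h2 η
      simpa using this
    obtain ⟨x, hx⟩ := exists_near_root h hu hu0 (by linarith) hpow
    have h0 : x = 0 := by
      refine eq_of_near_mu h (γ := γ - 1) hγg ?_
      have hd : Near A p (γ - 1) ((mu p x - mu p (0 : ZMod p)) * T η) := by
        have h3 := h.near_sub (h.near_sub (by simpa using IntNear.value h hM hb h1 η) (hval η))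
          (hx.mono (by linarith))
        rw [show Tn η - 1 - (T η - 1) - (Tn η - mu p x * T η) =
          (mu p x - mu p (0 : ZMod p)) * T η by rw [mu_zero]; ring] at h3
        exact h3
      rcases hd with hd | hd
      · exact Or.inl ((mul_eq_zero.mp hd).resolve_right hu)
      · rcases eq_or_ne (mu p x - mu p (0 : ZMod p)) 0 with e | e
        · exact Or.inl e
        · rw [h.ord_mul e hu, hu0, add_zero] at hd
          exact Or.inr hd
    rw [h0, mu_zero, one_mul] at hx
    exact hx
  have hdiff : IntNear A b (γ - 1) (T - Tn) := fun i => by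
    rw [← (charBasis p W).sum_repr (b i), map_sum]
    refine h.near_sum _ _ fun η _ => ?_
    rw [map_smul, smul_eq_mul, charBasis_apply, ofT_chi]
    refine (h.near_mul (hcoef i η) (h.near_sub_comm (hclose η))).mono ?_
    linarith
  have := hdiff.add h h1
  rwa [sub_add_sub_cancel] at this

end Fermat.Agent.RowS56
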