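import Fermat.Agent.FlatJ0.Ord
import Fermat.Agent.GalCoh.Descent.Mu
import Mathlib.RingTheory.RootsOfUnity.CyclotomicUnits
import Mathlib.RingTheory.Polynomial.Cyclotomic.Eval

/-!
# Approximate `p`-th roots of unity
-/

noncomputable section

namespace Fermat.Agent.RowS56

open Fermat.Agent.FlatJ0 Fermat.Agent.GalCoh.Descent

local notation "Ω" => AlgebraicClosure ℚ
local notation "G_ℚ" => (AlgebraicClosure ℚ) ≃ₐ[ℚ] (AlgebraicClosure ℚ)

variable {A : ValuationSubring Ω} {p : ℕ} [Fact p.Prime]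

/-- The value of `ζ - 1`. -/
def rootGap (p : ℕ) : ℚ := 1 / ((p : ℚ) - 1)

lemma rootGap_pos : 0 < rootGap p := by
  have : (2 : ℚ) ≤ p := by exact_mod_cast (Fact.out : p.Prime).two_le
  exact div_pos one_pos (by linarith)

omit [Fact (Nat.Prime p)] in
lemma cast_mul_rootGap : (p : ℚ) * rootGap p = (p : ℚ) / (p - 1) := mul_one_div _ _

lemma rootGap_add_one : rootGap p + 1 = (p : ℚ) / (p - 1) := by
  have : (2 : ℚ) ≤ p := by exact_mod_cast (Fact.out : p.Prime).two_le
  have hne : (p : ℚ) - 1 ≠ 0 := by linarith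
  rw [rootGap]
  field_simp
  ring

lemma mem_of_pow_prime_eq_one {z : Ω} (hz : z ^ p = 1) : z ∈ A :=
  (A.valuation_le_one_iff z).mp
    ((pow_le_one_iff (Fact.out : p.Prime).ne_zero).mp (by rw [← map_pow, hz, map_one]))

lemma mu_mem (x : ZMod p) : mu p x ∈ A := mem_of_pow_prime_eq_one (mu_pow x)

variable (h : IsOver A p)
include h

lemma ord_one_sub_zetaPow_le {i : ℕ} (hi : ¬ p ∣ i) :
    ord A p (1 - zetaP p ^ i) = ord A p (1 - zetaP p) := by
  have hp : p.Prime := Fact.out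
  have hζ := zetaP_spec p
  have key : ∀ z : Ω, IsPrimitiveRoot z p → ∀ j : ℕ, z ^ j ≠ 1 →
      ord A p (1 - z) ≤ ord A p (1 - z ^ j) := fun z hz j hj => by
    have e : 1 - z ^ j = (1 - z) * ∑ l ∈ Finset.range j, z ^ l := by
      rw [mul_neg_geom_sum]
    have hne : (1 - z : Ω) * ∑ l ∈ Finset.range j, z ^ l ≠ 0 := e ▸ sub_ne_zero.mpr (Ne.symm hj)
    obtain ⟨h1, h2⟩ := mul_ne_zero_iff.mp hne
    rw [e, h.ord_mul h1 h2, le_add_iff_nonneg_right]
    exact (h.mem_iff h2).mp (sum_mem fun l _ => pow_mem (mem_of_pow_prime_eq_one hz.pow_eq_one) l)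
  have hne : zetaP p ^ i ≠ 1 := fun e => hi (hζ.dvd_of_pow_eq_one i e)
  refine le_antisymm ?_ (key _ hζ i hne)
  obtain ⟨j, hj⟩ : ∃ j, (zetaP p ^ i) ^ j = zetaP p := by
    obtain ⟨j, -, hj⟩ := (hζ.pow_of_coprime i
      (Nat.coprime_comm.mp (hp.coprime_iff_not_dvd.mpr hi))).eq_pow_of_pow_eq_one hζ.pow_eq_one
    exact ⟨j, hj⟩
  have := key _ (hζ.pow_of_coprime i (Nat.coprime_comm.mp (hp.coprime_iff_not_dvd.mpr hi))) j
    (by rw [hj]; exact hζ.ne_one hp.one_lt)
  rwa [hj] at this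

/-- `ord (ζ - 1) = 1 / (p - 1)`. -/
lemma ord_one_sub_zetaP : ord A p (1 - zetaP p) = rootGap p := by
  have hp : p.Prime := Fact.out
  have hζ := zetaP_spec p
  have h1 := Polynomial.eval_one_cyclotomic_prime (R := Ω) (p := p)
  rw [Polynomial.cyclotomic_eq_prod_X_sub_primitiveRoots hζ, Polynomial.eval_prod] at h1
  have h2 := congrArg (ord A p) h1
  rw [h.ord_p, h.ord_prod _ _ (fun μ hμ => by
      rw [Polynomial.eval_sub, Polynomial.eval_X, Polynomial.eval_C, sub_ne_zero]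
      exact Ne.symm (((mem_primitiveRoots hp.pos).mp hμ).ne_one hp.one_lt)),
    Finset.sum_congr rfl (g := fun _ => ord A p (1 - zetaP p)) (fun μ hμ => by
      rw [Polynomial.eval_sub, Polynomial.eval_X, Polynomial.eval_C]
      have hμ' := (mem_primitiveRoots hp.pos).mp hμ
      obtain ⟨i, -, rfl⟩ := hζ.eq_pow_of_pow_eq_one hμ'.pow_eq_one
      exact ord_one_sub_zetaPow_le h fun hd => hμ'.ne_one hp.one_lt (by
        obtain ⟨m, rfl⟩ := hd
        rw [pow_mul, hζ.pow_eq_one, one_pow])),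
    Finset.sum_const, nsmul_eq_mul, hζ.card_primitiveRoots, Nat.totient_prime hp,
    Nat.cast_sub hp.one_le, Nat.cast_one] at h2
  have : (2 : ℚ) ≤ p := by exact_mod_cast hp.two_le
  rw [rootGap, eq_div_iff (by linarith), mul_comm]
  exact h2

/-- Distinct `p`-th roots of unity are at distance `1 / (p - 1)`. -/
lemma ord_mu_sub {x y : ZMod p} (hxy : x ≠ y) :
    mu p x - mu p y ≠ 0 ∧ ord A p (mu p x - mu p y) = rootGap p := by
  refine ⟨sub_ne_zero.mpr fun e => hxy (mu_injective e), ?_⟩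
  have hne : y - x ≠ 0 := sub_ne_zero.mpr (Ne.symm hxy)
  have e : mu p x - mu p y = mu p x * (1 - mu p (y - x)) := by
    rw [mul_sub, mul_one, ← mu_add, add_sub_cancel]
  have h1 : (1 : Ω) - mu p (y - x) ≠ 0 := sub_ne_zero.mpr fun e1 =>
    hne (mu_injective (e1.symm.trans mu_zero.symm))
  have h0 : ord A p (mu p x) = 0 := by
    have h3 := h.ord_pow (mu_ne_zero x) p
    rw [mu_pow, h.ord_one] at h3
    exact (mul_eq_zero.mp h3.symm).resolve_left (Nat.cast_ne_zero.mpr (Fact.out : p.Prime).ne_zero)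
  rw [e, h.ord_mul (mu_ne_zero x) h1, h0, zero_add, mu, ord_one_sub_zetaPow_le h (fun hd => by
    have := Nat.eq_zero_of_dvd_of_lt hd (ZMod.val_lt _)
    exact hne ((ZMod.val_eq_zero _).mp this)), ord_one_sub_zetaP h]

/-- A root of unity near another one is equal to it. -/
lemma eq_of_near_mu {x y : ZMod p} {γ : ℚ} (hγ : rootGap p < γ)
    (hn : Near A p γ (mu p x - mu p y)) : x = y := by
  by_contra hxy
  obtain ⟨h1, h2⟩ := ord_mu_sub h hxy
  have := hn.resolve_left h1
  linarith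

omit h in
/-- `a ^ p - b ^ p = ∏ (a - ζ b)`. -/
lemma pow_sub_pow_eq_prod (a b : Ω) : a ^ p - b ^ p = ∏ x : ZMod p, (a - mu p x * b) := by
  classical
  rw [(zetaP_spec p).pow_sub_pow_eq_prod_sub_mul a b (Fact.out : p.Prime).pos]
  refine Finset.prod_bij' (fun μ _ => muLog p μ) (fun x _ => mu p x)
    (fun _ _ => Finset.mem_univ _) (fun x _ => ?_) (fun μ hμ => ?_)
    (fun x _ => mu_injective (mu_muLog (mu_pow x))) fun μ hμ => ?_
  · exact (Polynomial.mem_nthRootsFinset (Fact.out : p.Prime).pos 1).mpr (mu_pow x)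
  · exact mu_muLog ((Polynomial.mem_nthRootsFinset (Fact.out : p.Prime).pos 1).mp hμ)
  · rw [mu_muLog ((Polynomial.mem_nthRootsFinset (Fact.out : p.Prime).pos 1).mp hμ)]

/-- If `a ^ p ≡ b ^ p` to depth `γ > p / (p - 1)`, then `a ≡ ζ b` to depth `γ - 1`. -/
theorem exists_near_root {a b : Ω} (hb0 : b ≠ 0) (hb : ord A p b = 0) {γ : ℚ}
    (hγ : (p : ℚ) / (p - 1) < γ) (hab : Near A p γ (a ^ p - b ^ p)) :
    ∃ x : ZMod p, Near A p (γ - 1) (a - mu p x * b) := by
  classical
  by_contra! hcon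
  have hne : ∀ x, a - mu p x * b ≠ 0 := fun x e => hcon x (e ▸ near_zero _)
  have hlt : ∀ x, ord A p (a - mu p x * b) < γ - 1 := fun x =>
    not_le.mp fun hle => hcon x (Or.inr hle)
  obtain ⟨j, -, hj⟩ := (Finset.univ : Finset (ZMod p)).exists_max_image
    (fun x => ord A p (a - mu p x * b)) Finset.univ_nonempty
  rw [pow_sub_pow_eq_prod] at hab
  have hprod := hab.resolve_left (Finset.prod_ne_zero_iff.mpr fun x _ => hne x)
  rw [h.ord_prod _ _ fun x _ => hne x] at hprod
  rcases le_or_gt (ord A p (a - mu p j * b)) (rootGap p) with hm | hm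
  · have := Finset.sum_le_card_nsmul (Finset.univ : Finset (ZMod p))
      (fun x => ord A p (a - mu p x * b)) (rootGap p) fun x hx => (hj x hx).trans hm
    rw [Finset.card_univ, ZMod.card, nsmul_eq_mul, cast_mul_rootGap] at this
    linarith
  · have hother : ∀ x, x ≠ j → ord A p (a - mu p x * b) = rootGap p := fun x hx => by
      obtain ⟨h1, h2⟩ := ord_mu_sub h (Ne.symm hx)
      have h3 : ord A p ((mu p j - mu p x) * b) = rootGap p := by
        rw [h.ord_mul h1 hb0, h2, hb, add_zero]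
      obtain ⟨-, h4⟩ := h.ord_add_eq (mul_ne_zero h1 hb0)
        (Or.inr le_rfl : Near A p (ord A p (a - mu p j * b)) (a - mu p j * b)) (h3 ▸ hm)
      rw [show (mu p j - mu p x) * b + (a - mu p j * b) = a - mu p x * b by ring, h3] at h4
      exact h4
    rw [← Finset.add_sum_erase _ _ (Finset.mem_univ j), Finset.sum_congr rfl
      (g := fun _ => rootGap p) (fun x hx => hother x (Finset.ne_of_mem_erase hx)),
      Finset.sum_const, Finset.card_erase_of_mem (Finset.mem_univ j), Finset.card_univ, ZMod.card,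
      nsmul_eq_mul, Nat.cast_sub (Fact.out : p.Prime).one_le, Nat.cast_one] at hprod
    have hg : ((p : ℚ) - 1) * rootGap p = 1 := by
      have : (2 : ℚ) ≤ p := by exact_mod_cast (Fact.out : p.Prime).two_le
      rw [rootGap, mul_one_div, div_self (by linarith)]
    have := hlt j
    linarith

end Fermat.Agent.RowS56
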