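import Fermat.Agent.RowS56.Model.Conn
import Fermat.Agent.EllLocal.BoundAux
import Fermat.Agent.FlatJ0.Ramif.Jump

/-!
# The deepest connected points of a model

The points at maximal depth are linearised by the leading terms of the functions; inertia acts on
them through a tame character.
-/

noncomputable section

set_option linter.unusedSectionVars false

namespace Fermat.Agent.RowS56

open Fermat.Agent.FlatJ0 Fermat.Agent.GalCoh.Descent Module ExtCitation
open EllLocal (resFun kummerRes)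

local notation "Ω" => AlgebraicClosure ℚ
local notation "G_ℚ" => (AlgebraicClosure ℚ) ≃ₐ[ℚ] (AlgebraicClosure ℚ)

variable {A : ValuationSubring Ω} {p : ℕ} [Fact p.Prime] {W : Type} [AddCommGroup W]
  [Module (ZMod p) W] [Finite W] {act : G_ℚ →* AddMonoid.End W}
  {M : Subalgebra (GaloisRep.ratLocalizedAt p) (W → Ω)} {ι : Type} [Fintype ι]
  {b : Basis ι Ω (W → Ω)}

/-- The point is at depth at least `ord z`. -/
def Deep (A : ValuationSubring Ω) (p : ℕ) (b : Basis ι Ω (W → Ω)) (z : Ω) (x : W) : Prop :=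
  ∀ i, Near A p (ord A p z) (b i x - b i 0)

/-- The leading terms at depth `ord z`. -/
def lead (A : ValuationSubring Ω) (b : Basis ι Ω (W → Ω)) (z : Ω) (x : W) (i : ι) :
    IsLocalRing.ResidueField A :=
  resFun A ((b i x - b i 0) / z)

/-- A deepest non-zero point, with its depth. -/
structure IsTop (A : ValuationSubring Ω) (p : ℕ) (b : Basis ι Ω (W → Ω)) (z : Ω) (x₀ : W) :
    Prop where
  ne : z ≠ 0
  pos : 0 < ord A p z
  le_gap : ord A p z ≤ rootGap p
  ne₀ : x₀ ≠ 0
  deep : Deep A p b z x₀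
  eq : ∃ i, z = b i x₀ - b i 0
  max : ∀ x, (∀ i, b i x = b i 0 ∨ ord A p z < ord A p (b i x - b i 0)) → x = 0

variable (h : IsOver A p) (hM : IsModel p act M) (hb : IsLatticeBasis A M b)
include h hM hb

/-- **A deepest point exists** when all points are connected. -/
theorem exists_isTop (hconn : ∀ x, Conn A M x) (hW : ∃ x : W, x ≠ 0) :
    ∃ z x₀, IsTop A p b z x₀ := by
  classical
  have : Fintype W := Fintype.ofFinite W
  have hex : ∀ x : W, ∃ i, x ≠ 0 → b i x - b i 0 ≠ 0 ∧
      ∀ j, Near A p (ord A p (b i x - b i 0)) (b j x - b j 0) := by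
    intro x
    by_cases hx : x = 0
    · obtain ⟨x', hx'⟩ := hW
      have : Nonempty ι := by
        by_contra he
        rw [not_nonempty_iff] at he
        exact hx' (eq_of_forall_near h hM hb (p := p) (γ := rootGap p + 1) (y := 0)
          (lt_add_one _) fun i => (IsEmpty.false i).elim)
      exact ⟨Classical.arbitrary ι, fun h' => absurd hx h'⟩
    have hne : (Finset.univ.filter fun i => b i x - b i 0 ≠ 0).Nonempty := by
      by_contra he
      refine hx (eq_of_forall_near h hM hb (p := p) (lt_add_one (rootGap p)) fun i => Or.inl ?_)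
      by_contra h0
      exact he ⟨i, Finset.mem_filter.mpr ⟨Finset.mem_univ i, h0⟩⟩
    obtain ⟨i, hi, hmin⟩ :=
      Finset.exists_min_image _ (fun i => ord A p (b i x - b i 0)) hne
    refine ⟨i, fun _ => ⟨(Finset.mem_filter.mp hi).2, fun j => ?_⟩⟩
    rcases eq_or_ne (b j x - b j 0) 0 with e | e
    · exact Or.inl e
    · exact Or.inr (hmin j (Finset.mem_filter.mpr ⟨Finset.mem_univ j, e⟩))
  choose i hi using hex
  obtain ⟨x', hx'⟩ := hW
  obtain ⟨x₀, hx₀, hmax⟩ := (Finset.univ.filter fun x : W => x ≠ 0).exists_max_image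
    (fun x => ord A p (b (i x) x - b (i x) 0))
    ⟨x', Finset.mem_filter.mpr ⟨Finset.mem_univ _, hx'⟩⟩
  have hx₀0 := (Finset.mem_filter.mp hx₀).2
  obtain ⟨hne, hnear⟩ := hi x₀ hx₀0
  refine ⟨_, x₀, hne, ?_, ?_, hx₀0, hnear, ⟨_, rfl⟩, fun x hx => ?_⟩
  · exact (h.nonunit_iff hne).mp (A.mem_nonunits_iff.mpr (hconn x₀ _ (hb.mem _)))
  · by_contra! hlt
    exact hx₀0 (eq_of_forall_near h hM hb (p := p) hlt hnear)
  · by_contra hne'
    obtain ⟨h1, -⟩ := hi x hne'
    rcases hx (i x) with e | e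
    · exact h1 (sub_eq_zero.mpr e)
    · exact absurd (hmax x (Finset.mem_filter.mpr ⟨Finset.mem_univ x, hne'⟩)) (not_le.mpr e)

variable {z : Ω} {x₀ : W} (ht : IsTop A p b z x₀)
include ht

lemma IsTop.near {x : W} (hx : Deep A p b z x) {f : W → Ω} (hf : f ∈ M) :
    Near A p (ord A p z) (f x - f 0) := by
  conv => arg 4; rw [← b.sum_repr f, Finset.sum_apply, Finset.sum_apply, ← Finset.sum_sub_distrib]
  refine h.near_sum _ _ fun i _ => ?_
  rw [Pi.smul_apply, Pi.smul_apply, smul_eq_mul, smul_eq_mul, ← mul_sub]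
  exact h.near_mul_left (hb.repr_mem f hf i) (hx i)

lemma IsTop.div_mem {d : Ω} (hd : Near A p (ord A p z) d) : d / z ∈ A := by
  rcases eq_or_ne d 0 with rfl | e
  · rw [zero_div]; exact zero_mem _
  rw [h.mem_iff (div_ne_zero e ht.ne), h.ord_div e ht.ne, sub_nonneg]
  exact hd.resolve_left e

/-- The defect of additivity is twice as deep. -/
lemma IsTop.near_add_sub {x y : W} (hx : Deep A p b z x) (hy : Deep A p b z y) (i : ι) :
    Near A p (ord A p z + ord A p z)
      (b i (x + y) - b i 0 - ((b i x - b i 0) + (b i y - b i 0))) := by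
  obtain ⟨n, a, c, ha, hc, e⟩ := hM.comul _ (hb.mem i)
  have ex : b i x = ∑ l, a l x * c l 0 := by rw [← e, add_zero]
  have ey : b i y = ∑ l, a l 0 * c l y := by rw [← e, zero_add]
  have e0 : b i 0 = ∑ l, a l 0 * c l 0 := by rw [← e, add_zero]
  rw [e, ex, ey, e0, ← Finset.sum_sub_distrib, ← Finset.sum_sub_distrib, ← Finset.sum_sub_distrib,
    ← Finset.sum_add_distrib, ← Finset.sum_sub_distrib]
  refine h.near_sum _ _ fun l _ => ?_
  rw [show a l x * c l y - a l 0 * c l 0 -
      (a l x * c l 0 - a l 0 * c l 0 + (a l 0 * c l y - a l 0 * c l 0)) =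
    (a l x - a l 0) * (c l y - c l 0) by ring]
  exact h.near_mul (ht.near h hM hb hx (ha l)) (ht.near h hM hb hy (hc l))

lemma IsTop.deep_add {x y : W} (hx : Deep A p b z x) (hy : Deep A p b z y) :
    Deep A p b z (x + y) := fun i => by
  have := h.near_add ((ht.near_add_sub h hM hb hx hy i).mono (le_add_of_nonneg_left ht.pos.le))
    (h.near_add (hx i) (hy i))
  rwa [sub_add_cancel] at this

lemma IsTop.deep_nsmul {x : W} (hx : Deep A p b z x) (n : ℕ) : Deep A p b z (n • x) := by
  induction n with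
  | zero => intro i; rw [zero_smul, sub_self]; exact near_zero _
  | succ n ih => rw [succ_nsmul]; exact ht.deep_add h hM hb ih hx

lemma IsTop.deep_sub {x y : W} (hx : Deep A p b z x) (hy : Deep A p b z y) :
    Deep A p b z (x - y) := by
  have e : x - y = x + (p - 1) • y := by
    rw [sub_eq_add_neg]
    refine congrArg (x + ·) (neg_eq_of_add_eq_zero_right ?_)
    rw [← succ_nsmul', Nat.sub_add_cancel (Fact.out : p.Prime).one_le,
      ← Nat.cast_smul_eq_nsmul (ZMod p), ZMod.natCast_self, zero_smul]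
  rw [e]
  exact ht.deep_add h hM hb hx (ht.deep_nsmul h hM hb hy _)

lemma IsTop.lead_add {x y : W} (hx : Deep A p b z x) (hy : Deep A p b z y) :
    lead A b z (x + y) = lead A b z x + lead A b z y := by
  funext i
  have hxy := ht.div_mem h hM hb (ht.deep_add h hM hb hx hy i)
  have hx' := ht.div_mem h hM hb (hx i)
  have hy' := ht.div_mem h hM hb (hy i)
  rw [Pi.add_apply, lead, lead, lead, ← EllLocal.resFun_add hx' hy',
    EllLocal.resFun_eq_iff hxy (add_mem hx' hy'), ← A.mem_nonunits_iff]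
  refine h.nonunit_of_near (γ := ord A p z) ?_ ht.pos
  rw [← add_div, ← sub_div, div_eq_mul_inv]
  refine (h.near_mul (ht.near_add_sub h hM hb hx hy i)
    (Or.inr (h.ord_inv ht.ne).ge : Near A p (-ord A p z) z⁻¹)).mono ?_
  linarith

lemma IsTop.lead_nsmul {x : W} (hx : Deep A p b z x) (n : ℕ) :
    lead A b z (n • x) = n • lead A b z x := by
  induction n with
  | zero =>
    funext i
    rw [zero_smul, zero_smul, Pi.zero_apply, lead, sub_self, zero_div,
      EllLocal.resFun_eq_zero_iff (zero_mem A), map_zero]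
    exact zero_lt_one
  | succ n ih =>
    rw [succ_nsmul, ht.lead_add h hM hb (ht.deep_nsmul h hM hb hx n) hx, ih, succ_nsmul]

/-- The leading terms determine the point. -/
theorem IsTop.lead_injective {x y : W} (hx : Deep A p b z x) (hy : Deep A p b z y)
    (e : lead A b z x = lead A b z y) : x = y := by
  have hd := ht.deep_sub h hM hb hx hy
  have e' : lead A b z (x - y) = 0 := by
    have := ht.lead_add h hM hb hd hy
    rw [sub_add_cancel, e] at this
    exact left_eq_add.mp (this.trans (add_comm _ _))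
  refine sub_eq_zero.mp (ht.max _ fun i => ?_)
  rcases eq_or_ne (b i (x - y) - b i 0) 0 with e0 | e0
  · exact Or.inl (sub_eq_zero.mp e0)
  refine Or.inr ?_
  have h1 := (EllLocal.resFun_eq_zero_iff (ht.div_mem h hM hb (hd i))).mp (congrFun e' i)
  rw [← A.mem_nonunits_iff, h.nonunit_iff (div_ne_zero e0 ht.ne), h.ord_div e0 ht.ne] at h1
  linarith

lemma IsTop.lead_top_ne : lead A b z x₀ ≠ 0 := fun e => by
  obtain ⟨i, hi⟩ := ht.eq
  have := congrFun e i
  rw [lead, ← hi, div_self ht.ne, EllLocal.resFun_of_mem (one_mem A), Pi.zero_apply] at this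
  exact one_ne_zero (this : IsLocalRing.residue A 1 = 0)

omit ht in
lemma deep_act {σ : G_ℚ} (hσ : σ ∈ A.decompositionSubgroup ℚ) {x : W} (hx : Deep A p b z x) :
    Deep A p b z (act σ x) := fun i => by
  have e : b i (act σ x) - b i 0 = σ (b i x - b i 0) := by
    rw [map_sub, ← hM.equiv _ (hb.mem i), ← hM.equiv _ (hb.mem i), map_zero]
  rw [e, h.near_apply hσ]
  exact hx i

/-- **Inertia acts on the leading terms by the character of `z`.** -/
theorem IsTop.lead_inertia {σ : G_ℚ} (hσ : σ ∈ A.inertiaSubgroupIn ℚ) {x : W}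
    (hx : Deep A p b z x) : lead A b z (act σ x) = kummerRes A z σ • lead A b z x := by
  funext i
  have hd := MultRed.inertia_mem_decomposition hσ
  have hm := ht.div_mem h hM hb (hx i)
  have e : (b i (act σ x) - b i 0) / z = σ z / z * σ ((b i x - b i 0) / z) := by
    have : σ z ≠ 0 := by simpa using ht.ne
    rw [map_div₀, map_sub, ← hM.equiv _ (hb.mem i), ← hM.equiv _ (hb.mem i), map_zero]
    field_simp
  rw [Pi.smul_apply, smul_eq_mul, lead, lead, e, EllLocal.resFun_mul
    (EllLocal.mem_iff_valuation_le.2 (EllLocal.smul_div_mem hd ht.ne).le) (h.apply_mem hd hm),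
    EllLocal.resFun_inertia hσ hm]
  rfl

/-- The stabiliser of a deep point contains the kernel of the character. -/
theorem IsTop.act_eq_of_kummerRes {σ τ : G_ℚ} (hσ : σ ∈ A.inertiaSubgroupIn ℚ)
    (hτ : τ ∈ A.inertiaSubgroupIn ℚ) (e : kummerRes A z σ = kummerRes A z τ) {x : W}
    (hx : Deep A p b z x) : act σ x = act τ x :=
  ht.lead_injective h hM hb (deep_act h hM hb (MultRed.inertia_mem_decomposition hσ) hx)
    (deep_act h hM hb (MultRed.inertia_mem_decomposition hτ) hx)
    (by rw [ht.lead_inertia h hM hb hσ hx, ht.lead_inertia h hM hb hτ hx, e])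

/-- **The depth times the order of the character is an integer.** -/
theorem IsTop.exists_mul_ord_eq {g : G_ℚ} (hg : g ∈ A.inertiaSubgroupIn ℚ) {m : ℕ} (hm : 0 < m)
    (hgm : kummerRes A z g ^ m = 1)
    (hgen : ∀ σ ∈ A.inertiaSubgroupIn ℚ, ∃ j : ℕ, kummerRes A z σ = kummerRes A z g ^ j) :
    ∃ a : ℕ, 0 < a ∧ (m : ℚ) * ord A p z = a := by
  obtain ⟨i, hi⟩ := ht.eq
  have hpow : ∀ j : ℕ, kummerRes A z (g ^ j) = kummerRes A z g ^ j := fun j => by
    induction j with
    | zero => rw [pow_zero, pow_zero, EllLocal.kummerRes_one ht.ne]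
    | succ j ih => rw [pow_succ, EllLocal.kummerRes_mul (pow_mem hg j) hg ht.ne, ih, pow_succ]
  have hz : ∀ σ ∈ A.inertiaSubgroupIn ℚ, ∀ τ ∈ A.inertiaSubgroupIn ℚ,
      kummerRes A z σ = kummerRes A z τ → σ z = τ z := fun σ hσ τ hτ e => by
    rw [hi, map_sub, map_sub, ← hM.equiv _ (hb.mem i), ← hM.equiv _ (hb.mem i),
      ← hM.equiv _ (hb.mem i), ← hM.equiv _ (hb.mem i),
      ht.act_eq_of_kummerRes h hM hb hσ hτ e ht.deep, map_zero, map_zero]
  have hgmz : (g ^ m) z = z := by
    rw [hz (g ^ m) (pow_mem hg m) 1 (one_mem _)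
      (by rw [hpow, hgm, EllLocal.kummerRes_one ht.ne]), AlgEquiv.one_apply]
  set P : Ω := ∏ l ∈ Finset.range m, (g ^ l) z with hP
  have hgP : g P = P := by
    obtain ⟨m', rfl⟩ := Nat.exists_eq_succ_of_ne_zero hm.ne'
    rw [hP, map_prod, Finset.prod_range_succ' (fun l => (g ^ l) z), Finset.prod_range_succ]
    rw [show g ((g ^ m') z) = z by rw [← AlgEquiv.mul_apply, ← pow_succ', hgmz]]
    simp only [pow_succ', pow_zero, AlgEquiv.one_apply, AlgEquiv.mul_apply]
  obtain ⟨a, ha⟩ := h.exists_ord_eq_int (x := P) fun σ hσ => by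
    obtain ⟨j, hj⟩ := hgen σ hσ
    have e : ∀ l : ℕ, σ ((g ^ l) z) = (g ^ j) ((g ^ l) z) := fun l => by
      rw [← AlgEquiv.mul_apply, ← AlgEquiv.mul_apply]
      refine hz _ (mul_mem hσ (pow_mem hg l)) _ (mul_mem (pow_mem hg j) (pow_mem hg l)) ?_
      rw [EllLocal.kummerRes_mul hσ (pow_mem hg l) ht.ne,
        EllLocal.kummerRes_mul (pow_mem hg j) (pow_mem hg l) ht.ne, hj, hpow j]
    rw [hP, map_prod, Finset.prod_congr rfl fun l _ => e l, ← map_prod, ← hP]
    clear hj e
    induction j with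
    | zero => rw [pow_zero, AlgEquiv.one_apply]
    | succ j ih => rw [pow_succ, AlgEquiv.mul_apply, hgP, ih]
  rw [hP, h.ord_prod _ _ fun l _ => (map_ne_zero _).mpr ht.ne,
    Finset.sum_congr rfl fun l _ =>
      h.ord_apply (MultRed.inertia_mem_decomposition (pow_mem hg l)) z,
    Finset.sum_const, Finset.card_range, nsmul_eq_mul] at ha
  have hpos : (0 : ℤ) < a := by
    have : (0 : ℚ) < a := ha ▸ mul_pos (by exact_mod_cast hm) ht.pos
    exact_mod_cast this
  obtain ⟨a', rfl⟩ := Int.eq_ofNat_of_zero_le hpos.le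
  exact ⟨a', by exact_mod_cast hpos, by rw [ha]; norm_cast⟩

omit hM hb ht in
/-- The character of `ζ - 1` is the cyclotomic character. -/
theorem kummerRes_zeta (σ : G_ℚ) :
    kummerRes A (mu p (1 : ZMod p) - 1) σ = (((cycloChar p σ : ZMod p).val : ℕ) :
      IsLocalRing.ResidueField A) := by
  set ζ : Ω := mu p (1 : ZMod p) with hζdef
  set w := (cycloChar p σ : ZMod p).val with hw
  have h1 : σ ζ = ζ ^ w := by
    rw [hζdef, apply_mu, ← mu_natCast_mul, ZMod.natCast_zmod_val]
  have hne : ζ - 1 ≠ 0 := sub_ne_zero.mpr fun e =>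
    one_ne_zero (mu_injective (p := p) (e.trans mu_zero.symm))
  have hlt : A.valuation (ζ - 1) < 1 := by
    rw [← A.mem_nonunits_iff, h.nonunit_iff hne, hζdef, ← mu_zero (p := p),
      (ord_mu_sub h (one_ne_zero (α := ZMod p))).2]
    exact rootGap_pos
  rw [kummerRes, map_sub, map_one, h1, show (ζ ^ w - 1) / (ζ - 1) = ∑ l ∈ Finset.range w, ζ ^ l by
    rw [← geom_sum_mul, mul_div_assoc, div_self hne, mul_one]]
  have hζA : ζ ∈ A := mu_mem _
  clear h1
  induction w with
  | zero => rw [Finset.sum_range_zero, EllLocal.resFun_of_mem (zero_mem A), Nat.cast_zero]; rfl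
  | succ w ih =>
    rw [Finset.sum_range_succ, EllLocal.resFun_add (sum_mem fun l _ => pow_mem hζA l)
      (pow_mem hζA w), ih, Nat.cast_succ,
      (EllLocal.resFun_eq_iff (pow_mem hζA w) (one_mem A)).mpr ?_, EllLocal.resFun_of_mem (one_mem A)]
    · rfl
    · rw [← geom_sum_mul, map_mul]
      exact lt_of_le_of_lt (mul_le_of_le_one_left zero_le ((A.valuation_le_one_iff _).mpr
        (sum_mem fun l _ => pow_mem hζA l))) hlt

end Fermat.Agent.RowS56
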